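import Mathlib
import Fermat.Prelude.Def_AlgebraicGeometry_RelativePicardFunctor

/-!
# S25 / block AFF / F4: affine "boxes" in a fibre product `C ×ₛ T` over an affine base

`c : C ⟶ S`, `t : T ⟶ S` with `S` affine, `U ⊆ C`, `V ⊆ T` opens.
`box c t U V := pr₁⁻¹ U ⊓ pr₂⁻¹ V ⊆ C ×ₛ T`.

* `isAffineOpen_box`: a box of affine opens is affine.
* `isPushout_box`: its ring of sections is the pushout (tensor product)
  `Γ(C, U) ⊗[Γ(S, ⊤)] Γ(T, V)`.
* `box_inf_box`, `iSup_box_left`, ... : lattice calculus of boxes (covers by boxes).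
* `box_basicOpen_left/right`: boxes of basic opens are basic opens of the box.
* compatibility with `RelPicard.baseChangeSnd` and `RelPicard.rigSection`.
-/

set_option autoImplicit false

universe u

open CategoryTheory CategoryTheory.Limits AlgebraicGeometry AlgebraicGeometry.RelPicard
  NeronModelInfra

namespace Fermat.Agent.S25.H205

section Box

variable {C T S : Scheme.{u}} (c : C ⟶ S) (t : T ⟶ S)

/-- The open `pr₁⁻¹ U ⊓ pr₂⁻¹ V` of the fibre product `C ×ₛ T`. -/
noncomputable def box (U : C.Opens) (V : T.Opens) : (pullback c t).Opens :=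
  (pullback.fst c t) ⁻¹ᵁ U ⊓ (pullback.snd c t) ⁻¹ᵁ V

variable {c t}

lemma box_def (U : C.Opens) (V : T.Opens) :
    box c t U V = (pullback.fst c t) ⁻¹ᵁ U ⊓ (pullback.snd c t) ⁻¹ᵁ V := rfl

lemma box_le_fst (U : C.Opens) (V : T.Opens) : box c t U V ≤ (pullback.fst c t) ⁻¹ᵁ U :=
  inf_le_left

lemma box_le_snd (U : C.Opens) (V : T.Opens) : box c t U V ≤ (pullback.snd c t) ⁻¹ᵁ V :=
  inf_le_right

@[simp] lemma box_top_top : box c t ⊤ ⊤ = ⊤ := by simp [box]

@[simp] lemma box_top_right (U : C.Opens) : box c t U ⊤ = (pullback.fst c t) ⁻¹ᵁ U := by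
  simp [box]

@[simp] lemma box_top_left (V : T.Opens) : box c t ⊤ V = (pullback.snd c t) ⁻¹ᵁ V := by
  simp [box]

lemma box_mono {U U' : C.Opens} {V V' : T.Opens} (hU : U ≤ U') (hV : V ≤ V') :
    box c t U V ≤ box c t U' V' :=
  inf_le_inf ((pullback.fst c t).preimage_mono hU) ((pullback.snd c t).preimage_mono hV)

lemma box_inf_box (U U' : C.Opens) (V V' : T.Opens) :
    box c t U V ⊓ box c t U' V' = box c t (U ⊓ U') (V ⊓ V') := by
  simp only [box, Scheme.Hom.preimage_inf]
  ac_rfl

lemma iSup_box_left {ι : Type*} (U : ι → C.Opens) (V : T.Opens) :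
    ⨆ i, box c t (U i) V = box c t (⨆ i, U i) V := by
  simp only [box, Scheme.Hom.preimage_iSup, iSup_inf_eq]

lemma iSup_box_right {ι : Type*} (U : C.Opens) (V : ι → T.Opens) :
    ⨆ i, box c t U (V i) = box c t U (⨆ i, V i) := by
  simp only [box, Scheme.Hom.preimage_iSup, inf_iSup_eq]

lemma iSup_box_left_eq_top {ι : Type*} (U : ι → C.Opens) (hU : ⨆ i, U i = ⊤) :
    ⨆ i, box c t (U i) ⊤ = ⊤ := by
  rw [iSup_box_left, hU, box_top_top]

lemma box_sup_left (U U' : C.Opens) (V : T.Opens) :
    box c t U V ⊔ box c t U' V = box c t (U ⊔ U') V := by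
  simp only [box, Scheme.Hom.preimage_sup, inf_sup_right]

lemma box_sup_right (U : C.Opens) (V V' : T.Opens) :
    box c t U V ⊔ box c t U V' = box c t U (V ⊔ V') := by
  simp only [box, Scheme.Hom.preimage_sup, inf_sup_left]

/-- Boxes of basic opens (left factor). -/
lemma box_basicOpen_left {U : C.Opens} (V : T.Opens) (x : Γ(C, U)) :
    box c t (C.basicOpen x) V =
      (pullback c t).basicOpen ((pullback.fst c t).appLE U (box c t U V) (box_le_fst U V) x) := by
  rw [Scheme.basicOpen_appLE]
  have h : (pullback.fst c t) ⁻¹ᵁ (C.basicOpen x) ≤ (pullback.fst c t) ⁻¹ᵁ U :=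
    (pullback.fst c t).preimage_mono (C.basicOpen_le x)
  simp only [box]
  apply le_antisymm
  · exact le_inf (le_inf (inf_le_left.trans h) inf_le_right) inf_le_left
  · exact le_inf inf_le_right (inf_le_left.trans inf_le_right)

/-- Boxes of basic opens (right factor). -/
lemma box_basicOpen_right (U : C.Opens) {V : T.Opens} (a : Γ(T, V)) :
    box c t U (T.basicOpen a) =
      (pullback c t).basicOpen ((pullback.snd c t).appLE V (box c t U V) (box_le_snd U V) a) := by
  rw [Scheme.basicOpen_appLE]
  have h : (pullback.snd c t) ⁻¹ᵁ (T.basicOpen a) ≤ (pullback.snd c t) ⁻¹ᵁ V :=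
    (pullback.snd c t).preimage_mono (T.basicOpen_le a)
  simp only [box]
  apply le_antisymm
  · exact le_inf (le_inf inf_le_left (inf_le_right.trans h)) inf_le_right
  · exact le_inf (inf_le_left.trans inf_le_left) inf_le_right

variable (c t)

/-- A box of affine opens lying over an affine open of the base is affine. -/
theorem isAffineOpen_box_of_le {US : S.Opens} (hUS : IsAffineOpen US) {U : C.Opens}
    {V : T.Opens} (hU : IsAffineOpen U) (hV : IsAffineOpen V) (hUSX : U ≤ c ⁻¹ᵁ US)
    (hUST : V ≤ t ⁻¹ᵁ US) : IsAffineOpen (box c t U V) := by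
  have H : IsPullback (pullback.fst c t) (pullback.snd c t) c t := IsPullback.of_hasPullback c t
  have : IsAffine US := hUS
  have : IsAffine U := hU
  have : IsAffine V := hV
  exact .of_isIso (Scheme.Hom.isPullback_resLE H hUST hUSX (box_def U V)).isoPullback.hom

/-- The sections over a box of affine opens (over an affine open of the base) form the pushout
`Γ(C, U) ⊗[Γ(S, US)] Γ(T, V)`. -/
theorem isPushout_box_of_le {US : S.Opens} (hUS : IsAffineOpen US) {U : C.Opens}
    {V : T.Opens} (hU : IsAffineOpen U) (hV : IsAffineOpen V) (hUSX : U ≤ c ⁻¹ᵁ US)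
    (hUST : V ≤ t ⁻¹ᵁ US) :
    IsPushout (c.appLE US U hUSX) (t.appLE US V hUST)
      ((pullback.fst c t).appLE U (box c t U V) (box_le_fst U V))
      ((pullback.snd c t).appLE V (box c t U V) (box_le_snd U V)) := by
  have H : IsPullback (pullback.fst c t) (pullback.snd c t) c t := IsPullback.of_hasPullback c t
  exact (isIso_pushoutSection_iff H hUST hUSX (box_def U V)).mp
    (isIso_pushoutSection_of_isAffineOpen H hUST hUSX (box_def U V) hUS hV hU)

section AffineBase

variable [IsAffine S]

/-- Over an affine base, a box of affine opens is affine. -/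
theorem isAffineOpen_box {U : C.Opens} {V : T.Opens} (hU : IsAffineOpen U)
    (hV : IsAffineOpen V) : IsAffineOpen (box c t U V) :=
  isAffineOpen_box_of_le c t (isAffineOpen_top S) hU hV (by simp) (by simp)

/-- Over an affine base `S`, the sections over a box of affine opens form the pushout
`Γ(C, U) ⊗[Γ(S, ⊤)] Γ(T, V)`. -/
theorem isPushout_box {U : C.Opens} {V : T.Opens} (hU : IsAffineOpen U)
    (hV : IsAffineOpen V) :
    IsPushout (c.appLE ⊤ U (by simp)) (t.appLE ⊤ V (by simp))
      ((pullback.fst c t).appLE U (box c t U V) (box_le_fst U V))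
      ((pullback.snd c t).appLE V (box c t U V) (box_le_snd U V)) :=
  isPushout_box_of_le c t (isAffineOpen_top S) hU hV (by simp) (by simp)

/-- If `T` is affine, the preimage in `C ×ₛ T` of an affine open of `C` is affine. -/
theorem isAffineOpen_fst_preimage [IsAffine T] {U : C.Opens} (hU : IsAffineOpen U) :
    IsAffineOpen ((pullback.fst c t) ⁻¹ᵁ U) := by
  rw [← box_top_right]
  exact isAffineOpen_box c t hU (isAffineOpen_top T)

/-- If `C` is affine, the preimage in `C ×ₛ T` of an affine open of `T` is affine. -/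
theorem isAffineOpen_snd_preimage [IsAffine C] {V : T.Opens} (hV : IsAffineOpen V) :
    IsAffineOpen ((pullback.snd c t) ⁻¹ᵁ V) := by
  rw [← box_top_left]
  exact isAffineOpen_box c t (isAffineOpen_top C) hV

end AffineBase

end Box

section Compat

/-- `appLE` only depends on the morphism up to equality. -/
lemma appLE_congr_hom {X Y : Scheme.{u}} {f g : X ⟶ Y} (h : f = g) (U : Y.Opens)
    (V : X.Opens) (e : V ≤ f ⁻¹ᵁ U) : f.appLE U V e = g.appLE U V (h ▸ e) := by
  subst h; rfl

variable {R : Type u} [CommRing R] {C T T' : Scheme.{u}} (c : C ⟶ Spec (CommRingCat.of R))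
  {t : T ⟶ Spec (CommRingCat.of R)} {t' : T' ⟶ Spec (CommRingCat.of R)}

@[reassoc (attr := simp)]
lemma baseChangeSnd_fst (s : SchemeHomOver t' t) :
    baseChangeSnd c s ≫ pullback.fst c t = pullback.fst c t' := by
  unfold baseChangeSnd
  exact (pullback.lift_fst _ _ _).trans (Category.comp_id _)

@[reassoc (attr := simp)]
lemma baseChangeSnd_snd (s : SchemeHomOver t' t) :
    baseChangeSnd c s ≫ pullback.snd c t = pullback.snd c t' ≫ s.1 := by
  unfold baseChangeSnd
  exact pullback.lift_snd _ _ _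

/-- The base-change square `C ×ₖ T' ⟶ C ×ₖ T` over `T' ⟶ T` is cartesian. -/
theorem isPullback_baseChangeSnd (s : SchemeHomOver t' t) :
    IsPullback (baseChangeSnd c s) (pullback.snd c t') (pullback.snd c t) s.1 := by
  have hbig : IsPullback (baseChangeSnd c s ≫ pullback.fst c t) (pullback.snd c t') c
      (s.1 ≫ t) := by
    rw [baseChangeSnd_fst, s.2]
    exact IsPullback.of_hasPullback c t'
  exact IsPullback.of_right hbig (baseChangeSnd_snd c s) (IsPullback.of_hasPullback c t)

lemma baseChangeSnd_preimage_box (s : SchemeHomOver t' t) (U : C.Opens) (V : T.Opens) :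
    (baseChangeSnd c s) ⁻¹ᵁ (box c t U V) = box c t' U (s.1 ⁻¹ᵁ V) := by
  simp only [box, Scheme.Hom.preimage_inf, ← Scheme.Hom.comp_preimage, baseChangeSnd_fst,
    baseChangeSnd_snd]

lemma box_le_baseChangeSnd_preimage (s : SchemeHomOver t' t) {U : C.Opens} {V : T.Opens}
    {V' : T'.Opens} (hV : V' ≤ s.1 ⁻¹ᵁ V) :
    box c t' U V' ≤ (baseChangeSnd c s) ⁻¹ᵁ (box c t U V) := by
  rw [baseChangeSnd_preimage_box]
  exact box_mono le_rfl hV

/-- On sections over boxes, `baseChangeSnd` is the identity on the `C`-factor ... -/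
lemma fst_appLE_baseChangeSnd_appLE (s : SchemeHomOver t' t) {U : C.Opens} {V : T.Opens}
    {V' : T'.Opens} (hV : V' ≤ s.1 ⁻¹ᵁ V) :
    (pullback.fst c t).appLE U (box c t U V) (box_le_fst U V) ≫
        (baseChangeSnd c s).appLE (box c t U V) (box c t' U V')
          (box_le_baseChangeSnd_preimage c s hV) =
      (pullback.fst c t').appLE U (box c t' U V') (box_le_fst U V') := by
  rw [Scheme.Hom.appLE_comp_appLE]
  exact appLE_congr_hom (baseChangeSnd_fst c s) _ _ _

/-- ... and the given map `T' ⟶ T` on the `T`-factor. -/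
lemma snd_appLE_baseChangeSnd_appLE (s : SchemeHomOver t' t) {U : C.Opens} {V : T.Opens}
    {V' : T'.Opens} (hV : V' ≤ s.1 ⁻¹ᵁ V) :
    (pullback.snd c t).appLE V (box c t U V) (box_le_snd U V) ≫
        (baseChangeSnd c s).appLE (box c t U V) (box c t' U V')
          (box_le_baseChangeSnd_preimage c s hV) =
      s.1.appLE V V' hV ≫ (pullback.snd c t').appLE V' (box c t' U V') (box_le_snd U V') := by
  rw [Scheme.Hom.appLE_comp_appLE, Scheme.Hom.appLE_comp_appLE]
  exact appLE_congr_hom (baseChangeSnd_snd c s) _ _ _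

variable (t) (ε : SchemeHomOver (𝟙 (Spec (CommRingCat.of R))) c)

@[reassoc (attr := simp)]
lemma rigSection_fst : rigSection c t ε ≫ pullback.fst c t = t ≫ ε.1 := by
  unfold rigSection
  exact pullback.lift_fst _ _ _

@[reassoc (attr := simp)]
lemma rigSection_snd : rigSection c t ε ≫ pullback.snd c t = 𝟙 T := by
  unfold rigSection
  exact pullback.lift_snd _ _ _

lemma rigSection_preimage_box (U : C.Opens) (V : T.Opens) :
    (rigSection c t ε) ⁻¹ᵁ (box c t U V) = (t ≫ ε.1) ⁻¹ᵁ U ⊓ V := by
  simp only [box, Scheme.Hom.preimage_inf, ← Scheme.Hom.comp_preimage, rigSection_fst,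
    rigSection_snd]
  rfl

lemma rigSection_preimage_snd_preimage (V : T.Opens) :
    (rigSection c t ε) ⁻¹ᵁ ((pullback.snd c t) ⁻¹ᵁ V) = V := by
  rw [← Scheme.Hom.comp_preimage, rigSection_snd]
  rfl

lemma le_rigSection_preimage_box {U : C.Opens} {V W : T.Opens} (hW : W ≤ V)
    (hU : W ≤ (t ≫ ε.1) ⁻¹ᵁ U) : W ≤ (rigSection c t ε) ⁻¹ᵁ (box c t U V) := by
  rw [rigSection_preimage_box]
  exact le_inf hU hW

/-- Pulling back along the rigidifying section, on the `C`-factor of a box: evaluation at `ε`. -/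
lemma fst_appLE_rigSection_appLE {U : C.Opens} {V W : T.Opens} (hW : W ≤ V)
    (hU : W ≤ (t ≫ ε.1) ⁻¹ᵁ U) :
    (pullback.fst c t).appLE U (box c t U V) (box_le_fst U V) ≫
        (rigSection c t ε).appLE (box c t U V) W (le_rigSection_preimage_box c t ε hW hU) =
      (t ≫ ε.1).appLE U W hU := by
  rw [Scheme.Hom.appLE_comp_appLE]
  exact appLE_congr_hom (rigSection_fst c t ε) _ _ _

/-- Pulling back along the rigidifying section, on the `T`-factor of a box: restriction. -/
lemma snd_appLE_rigSection_appLE {U : C.Opens} {V W : T.Opens} (hW : W ≤ V)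
    (hU : W ≤ (t ≫ ε.1) ⁻¹ᵁ U) :
    (pullback.snd c t).appLE V (box c t U V) (box_le_snd U V) ≫
        (rigSection c t ε).appLE (box c t U V) W (le_rigSection_preimage_box c t ε hW hU) =
      T.presheaf.map (homOfLE hW).op := by
  rw [Scheme.Hom.appLE_comp_appLE, appLE_congr_hom (rigSection_snd c t ε)]
  simp only [Scheme.Hom.appLE]
  exact Category.id_comp _

/-- The rigidifying section is a section of the projection, on sections of the structure sheaf. -/
lemma snd_app_rigSection_appLE (V : T.Opens) :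
    (pullback.snd c t).app V ≫ (rigSection c t ε).appLE ((pullback.snd c t) ⁻¹ᵁ V) V
        (rigSection_preimage_snd_preimage c t ε V).ge = 𝟙 _ := by
  rw [Scheme.Hom.app_eq_appLE, Scheme.Hom.appLE_comp_appLE,
    appLE_congr_hom (rigSection_snd c t ε)]
  simp only [Scheme.Hom.appLE]
  exact (Category.id_comp _).trans (T.presheaf.map_id _)

end Compat

end Fermat.Agent.S25.H205
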