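import Mathlib
import Fermat.Agent.S25.H205.Box

/-!
# S25 / block AFF / F5: global sections of a proper integral curve and of its base changes

`k` algebraically closed, `c : C ⟶ Spec k` proper, `C` integral.

* `appTop_bijective` / `isIso_appTop`: `Γ(Spec k, ⊤) ⟶ Γ(C, ⊤)` is an isomorphism (`Γ(C, 𝒪) = k`).
* `isIso_snd_app`: for EVERY `k`-scheme `t : T ⟶ Spec k` and every open `V ⊆ T`,
  `Γ(T, V) ⟶ Γ(C ×ₖ T, pr₂⁻¹ V)` is an isomorphism (`(pr₂)_* 𝒪 = 𝒪_T`).
* `isIso_rigSection_appLE`, `rigSection_appLE_injective`: the inverse is pulling back along the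
  rigidifying section; a function on `pr₂⁻¹ V` is determined by its restriction to the section.
* `isUnit_of_rigSection_appLE`, `eq_one_of_rigSection_appLE_eq_one`.
-/

set_option autoImplicit false

universe u

open CategoryTheory CategoryTheory.Limits AlgebraicGeometry AlgebraicGeometry.RelPicard
  NeronModelInfra

namespace Fermat.Agent.S25.H205

section F5a

variable (k : Type u) [Field k] [IsAlgClosed k] {C : Scheme.{u}}
  (c : C ⟶ Spec (CommRingCat.of k)) [IsProper c] [IsIntegral C]

/-- `Γ(C, 𝒪_C) = k` for a proper integral scheme over an algebraically closed field: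
the structure map on global sections is bijective. -/
theorem appTop_bijective : Function.Bijective c.appTop.hom := by
  have hfin : c.appTop.hom.Finite := finite_appTop_of_universallyClosed k c
  have hfld : IsField Γ(C, ⊤) := isField_of_universallyClosed k c
  let e : (CommRingCat.of k) ≅ Γ(Spec (CommRingCat.of k), ⊤) := (Scheme.ΓSpecIso _).symm
  let F : k →+* Γ(C, ⊤) := (e.hom ≫ c.appTop).hom
  let : Field Γ(C, ⊤) := hfld.toField
  have hF : F.Finite := by
    have := RingHom.Finite.comp hfin (RingHom.Finite.of_surjective e.hom.hom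
      (e.commRingCatIsoToRingEquiv.surjective))
    simpa [F] using this
  let : Algebra k Γ(C, ⊤) := F.toAlgebra
  have : Module.Finite k Γ(C, ⊤) := hF
  have hbij : Function.Bijective (algebraMap k Γ(C, ⊤)) :=
    IsAlgClosed.algebraMap_bijective_of_isIntegral
  have hF' : Function.Bijective F := hbij
  have : c.appTop.hom = F.comp e.inv.hom := by
    ext x
    simp [F]
  rw [this]
  exact hF'.comp e.symm.commRingCatIsoToRingEquiv.bijective

instance isIso_appTop : IsIso c.appTop := by
  rw [ConcreteCategory.isIso_iff_bijective]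
  exact appTop_bijective k c

end F5a

section F5b

variable (k : Type u) [Field k] [IsAlgClosed k] {C : Scheme.{u}}
  (c : C ⟶ Spec (CommRingCat.of k)) [IsProper c] [IsIntegral C]
  {T : Scheme.{u}} (t : T ⟶ Spec (CommRingCat.of k))

/-- Flat base change of `H⁰`: for an affine open `V ⊆ T`, sections of `𝒪_T` over `V` are the
sections of `𝒪_{C ×ₖ T}` over the preimage of `V`. -/
theorem isIso_snd_app_of_isAffineOpen {V : T.Opens} (hV : IsAffineOpen V) :
    IsIso ((pullback.snd c t).app V) := by
  have H : IsPullback (pullback.fst c t) (pullback.snd c t) c t := IsPullback.of_hasPullback c t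
  have hUST : V ≤ t ⁻¹ᵁ (⊤ : (Spec (CommRingCat.of k)).Opens) := by simp
  have hUSX : (⊤ : C.Opens) ≤ c ⁻¹ᵁ (⊤ : (Spec (CommRingCat.of k)).Opens) := by simp
  have hUY : (pullback.snd c t) ⁻¹ᵁ V = (pullback.fst c t) ⁻¹ᵁ (⊤ : C.Opens) ⊓
      (pullback.snd c t) ⁻¹ᵁ V := by simp
  have : CompactSpace C := (quasiCompact_iff_compactSpace c).mp inferInstance
  have : QuasiSeparatedSpace C := (quasiSeparated_iff_quasiSeparatedSpace c).mp inferInstance
  have hiso := isIso_pushoutSection_of_isQuasiSeparated_of_flat_right H hUST hUSX hUY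
    (isAffineOpen_top _) hV (by simpa using isCompact_univ)
    (by simpa using isQuasiSeparated_univ)
  have hc : IsIso (c.appLE ⊤ ⊤ hUSX) := by
    have : c.appLE ⊤ ⊤ hUSX = c.appTop := by simp [Scheme.Hom.appTop, Scheme.Hom.app_eq_appLE]
    rw [this]; exact isIso_appTop k c
  have hinr : IsIso (pushout.inr (c.appLE ⊤ ⊤ hUSX) (t.appLE ⊤ V hUST)) := inferInstance
  have heq : (pullback.snd c t).app V =
      pushout.inr (c.appLE ⊤ ⊤ hUSX) (t.appLE ⊤ V hUST) ≫ pushoutSection H hUST hUSX hUY := by
    rw [Scheme.Hom.app_eq_appLE]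
    exact (pushout.inr_desc _ _ _).symm
  rw [heq]
  infer_instance

/-- `𝒪_T ⟶ (pr₂)_* 𝒪_{C ×ₖ T}` is an isomorphism of sheaves: for EVERY open `V ⊆ T`
(no hypothesis on `T`), `Γ(T, V) ⟶ Γ(C ×ₖ T, pr₂⁻¹ V)` is an isomorphism. -/
theorem isIso_snd_app (V : T.Opens) : IsIso ((pullback.snd c t).app V) := by
  let f := pullback.snd c t
  let F : TopCat.Sheaf CommRingCat T := T.sheaf
  let G : TopCat.Sheaf CommRingCat T :=
    (TopCat.Sheaf.pushforward _ f.base).obj (pullback c t).sheaf
  let φ : F ⟶ G := ⟨f.c⟩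
  have hB : TopologicalSpace.Opens.IsBasis
      (Set.range (fun U : T.affineOpens => (U : T.Opens))) := by
    rw [Subtype.range_coe]; exact T.isBasis_affineOpens
  have hφ : IsIso φ := TopCat.Sheaf.isIso_iff_isIso_basis
    (B := fun U : T.affineOpens => (U : T.Opens)) hB
    (fun U => isIso_snd_app_of_isAffineOpen k c t U.2)
  have h2 : IsIso ((TopCat.Sheaf.forget _ _).map φ) := inferInstance
  exact NatIso.isIso_app_of_isIso ((TopCat.Sheaf.forget _ _).map φ) (Opposite.op V)

instance isIso_snd_appTop : IsIso (pullback.snd c t).appTop := isIso_snd_app k c t ⊤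

/-- The ring isomorphism `Γ(T, V) ≅ Γ(C ×ₖ T, pr₂⁻¹ V)`. -/
noncomputable def sndAppIso (V : T.Opens) :
    Γ(T, V) ≅ Γ(pullback c t, (pullback.snd c t) ⁻¹ᵁ V) :=
  haveI := isIso_snd_app k c t V
  asIso ((pullback.snd c t).app V)

@[simp] lemma sndAppIso_hom (V : T.Opens) :
    (sndAppIso k c t V).hom = (pullback.snd c t).app V := rfl

end F5b

section F5c

variable (k : Type u) [Field k] [IsAlgClosed k] {C : Scheme.{u}}
  (c : C ⟶ Spec (CommRingCat.of k)) [IsProper c] [IsIntegral C]
  {T : Scheme.{u}} (t : T ⟶ Spec (CommRingCat.of k))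
  (ε : SchemeHomOver (𝟙 (Spec (CommRingCat.of k))) c)

/-- Pulling back functions along the rigidifying section `T ⟶ C ×ₖ T`. -/
noncomputable abbrev rigRestrict (V : T.Opens) :
    Γ(pullback c t, (pullback.snd c t) ⁻¹ᵁ V) ⟶ Γ(T, V) :=
  (rigSection c t ε).appLE ((pullback.snd c t) ⁻¹ᵁ V) V
    (rigSection_preimage_snd_preimage c t ε V).ge

omit [IsAlgClosed k] [IsProper c] [IsIntegral C] in
lemma snd_app_rigRestrict (V : T.Opens) :
    (pullback.snd c t).app V ≫ rigRestrict k c t ε V = 𝟙 _ :=
  snd_app_rigSection_appLE c t ε V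

lemma rigRestrict_snd_app (V : T.Opens) :
    rigRestrict k c t ε V ≫ (pullback.snd c t).app V = 𝟙 _ := by
  have := isIso_snd_app k c t V
  rw [← cancel_epi ((pullback.snd c t).app V), ← Category.assoc, snd_app_rigRestrict]
  simp

instance isIso_rigRestrict (V : T.Opens) : IsIso (rigRestrict k c t ε V) :=
  ⟨(pullback.snd c t).app V, rigRestrict_snd_app k c t ε V, snd_app_rigRestrict k c t ε V⟩

lemma rigRestrict_injective (V : T.Opens) :
    Function.Injective (rigRestrict k c t ε V).hom :=
  ((ConcreteCategory.isIso_iff_bijective _).mp (isIso_rigRestrict k c t ε V)).1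

lemma rigRestrict_bijective (V : T.Opens) :
    Function.Bijective (rigRestrict k c t ε V).hom :=
  (ConcreteCategory.isIso_iff_bijective _).mp (isIso_rigRestrict k c t ε V)

/-- A function on `pr₂⁻¹ V ⊆ C ×ₖ T` is the pullback of its restriction to the section. -/
lemma snd_app_rigRestrict_apply (V : T.Opens) (s : Γ(pullback c t, (pullback.snd c t) ⁻¹ᵁ V)) :
    (pullback.snd c t).app V (rigRestrict k c t ε V s) = s :=
  congr($(rigRestrict_snd_app k c t ε V) s)

/-- A function on `pr₂⁻¹ V ⊆ C ×ₖ T` restricting to `1` on the rigidifying section is `1`. -/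
lemma eq_one_of_rigRestrict_eq_one (V : T.Opens)
    (s : Γ(pullback c t, (pullback.snd c t) ⁻¹ᵁ V)) (hs : rigRestrict k c t ε V s = 1) :
    s = 1 :=
  rigRestrict_injective k c t ε V (hs.trans (map_one _).symm)

/-- A function on `pr₂⁻¹ V ⊆ C ×ₖ T` restricting to `0` on the rigidifying section is `0`. -/
lemma eq_zero_of_rigRestrict_eq_zero (V : T.Opens)
    (s : Γ(pullback c t, (pullback.snd c t) ⁻¹ᵁ V)) (hs : rigRestrict k c t ε V s = 0) :
    s = 0 :=
  rigRestrict_injective k c t ε V (hs.trans (map_zero _).symm)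

/-- A function on `pr₂⁻¹ V ⊆ C ×ₖ T` is a unit iff its restriction to the section is. -/
lemma isUnit_iff_isUnit_rigRestrict (V : T.Opens)
    (s : Γ(pullback c t, (pullback.snd c t) ⁻¹ᵁ V)) :
    IsUnit s ↔ IsUnit (rigRestrict k c t ε V s) := by
  refine ⟨fun h => h.map (rigRestrict k c t ε V).hom, fun h => ?_⟩
  rw [← snd_app_rigRestrict_apply k c t ε V s]
  exact h.map ((pullback.snd c t).app V).hom

end F5c

end Fermat.Agent.S25.H205
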