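import Fermat.Agent.S25.Defs
import Fermat.Agent.S25.H205.Box

/-!
# S25 / assembly block AS5: `Stmt.LocalP` (degree zero is Zariski-local on the base)

* `isAlgEquivZero_fibre_of_pullbackAlong`: the fibre of `M` at a geometric point `s' ≫ ψ` of `T`
  is algebraically equivalent to zero as soon as the fibre of `M.pullbackAlong ψ` at `s'` is
  (converse of the Prelude's `FibrewiseAlgEquivZero.pullback`, pointwise).
* `fibrewiseAlgEquivZero_of_jointly_surjective`: `FibrewiseAlgEquivZero` descends along any family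
  `ψ i : T i ⟶ T` through which every geometric point of `T` factors.
* `localP : Stmt.LocalP c ε`.
-/

set_option autoImplicit false

universe u

open CategoryTheory CategoryTheory.Limits AlgebraicGeometry AlgebraicGeometry.RelPicard
  NeronModelInfra GoodReductionJacobian

namespace Fermat.Agent.S25.H205

section

variable {R : Type u} [CommRing R] {C : Scheme.{u}} {c : C ⟶ Spec (CommRingCat.of R)}
  {ε : SchemeHomOver (𝟙 (Spec (CommRingCat.of R))) c}
  {T T' : Scheme.{u}} {t : T ⟶ Spec (CommRingCat.of R)} {t' : T' ⟶ Spec (CommRingCat.of R)}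

/-- The fibre of `C ×ₖ T'` over a point `s'` of `T'` is the fibre of `C ×ₖ T` over `s' ≫ ψ`. -/
theorem isPullback_fibre (ψ : SchemeHomOver t' t) {K : Type u} [Field K]
    (s' : Spec (CommRingCat.of K) ⟶ T') :
    IsPullback (pullback.fst (pullback.snd c t') s' ≫ baseChangeSnd c ψ)
      (pullback.snd (pullback.snd c t') s') (pullback.snd c t) (s' ≫ ψ.1) :=
  (IsPullback.of_hasPullback (pullback.snd c t') s').paste_horiz (isPullback_baseChangeSnd c ψ)

/-- Converse of `FibrewiseAlgEquivZero.pullback` at a single geometric point. -/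
theorem isAlgEquivZero_fibre_of_pullbackAlong (ψ : SchemeHomOver t' t)
    (M : RigidifiedLineBundle c ε t) {K : Type u} [Field K]
    (s' : Spec (CommRingCat.of K) ⟶ T') (s : Spec (CommRingCat.of K) ⟶ T) (hs : s' ≫ ψ.1 = s)
    (h : IsAlgEquivZero (fibreAt c t' s')
      ((Scheme.Modules.pullback (pullback.fst (pullback.snd c t') s')).obj
        (M.pullbackAlong ψ).L)) :
    IsAlgEquivZero (fibreAt c t s)
      ((Scheme.Modules.pullback (pullback.fst (pullback.snd c t) s)).obj M.L) := by
  subst hs
  let H := isPullback_fibre (c := c) ψ s'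
  let e : pullback (pullback.snd c t) (s' ≫ ψ.1) ⟶ pullback (pullback.snd c t') s' :=
    H.isoPullback.inv
  have he : e ≫ fibreAt c t' s' = fibreAt c t (s' ≫ ψ.1) := by
    simp only [e, fibreAt]
    exact H.isoPullback_inv_snd
  have hfst : e ≫ pullback.fst (pullback.snd c t') s' ≫ baseChangeSnd c ψ =
      pullback.fst (pullback.snd c t) (s' ≫ ψ.1) := by
    simp only [e]
    exact H.isoPullback_inv_fst
  refine IsAlgEquivZero.of_iso ?_ (h.pullback e he)
  exact (Scheme.Modules.pullback e).mapIso ((Scheme.Modules.pullbackComp _ _).app M.L) ≪≫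
    (Scheme.Modules.pullbackComp _ _).app M.L ≪≫
    (Scheme.Modules.pullbackCongr hfst).app M.L

/-- `FibrewiseAlgEquivZero` descends along any family of morphisms `ψ i : T i ⟶ T` through which
every geometric point of `T` factors. -/
theorem fibrewiseAlgEquivZero_of_forall_factors {ι : Type*} {T' : ι → Scheme.{u}}
    {t' : ∀ i, T' i ⟶ Spec (CommRingCat.of R)} (ψ : ∀ i, SchemeHomOver (t' i) t)
    (M : RigidifiedLineBundle c ε t)
    (hfac : ∀ (K : Type u) [Field K] [IsAlgClosed K] (s : Spec (CommRingCat.of K) ⟶ T),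
      ∃ (i : ι) (s' : Spec (CommRingCat.of K) ⟶ T' i), s' ≫ (ψ i).1 = s)
    (hM : ∀ i, FibrewiseAlgEquivZero (M.pullbackAlong (ψ i))) : FibrewiseAlgEquivZero M := by
  intro K _ _ s
  obtain ⟨i, s', hs'⟩ := hfac K s
  exact isAlgEquivZero_fibre_of_pullbackAlong (ψ i) M s' s hs' (hM i K s')

end

section

variable {k : Type u} [Field k] {C : Scheme.{u}} (c : C ⟶ Spec (CommRingCat.of k))
  (ε : SchemeHomOver (𝟙 (Spec (CommRingCat.of k))) c)

/-- A morphism from the spectrum of a field factors through any open containing the image of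
its unique point; here: through some member of an open cover. -/
theorem exists_lift_of_iSup_eq_top {T : Scheme.{u}} {ι : Type*} (U : ι → T.Opens)
    (hU : (⨆ i, U i) = ⊤) {K : Type u} [Field K] (s : Spec (CommRingCat.of K) ⟶ T) :
    ∃ (i : ι) (s' : Spec (CommRingCat.of K) ⟶ (U i).toScheme), s' ≫ (U i).ι = s := by
  have x : Spec (CommRingCat.of K) := (default : PrimeSpectrum K)
  have hx : s.base x ∈ (⨆ i, U i) := by rw [hU]; trivial
  obtain ⟨i, hi⟩ := TopologicalSpace.Opens.mem_iSup.mp hx
  have hrange : Set.range s.base ⊆ Set.range (U i).ι.base := by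
    rintro _ ⟨y, rfl⟩
    have : y = x := Subsingleton.elim _ _
    rw [this]
    simpa using hi
  exact ⟨i, IsOpenImmersion.lift (U i).ι s hrange, IsOpenImmersion.lift_fac _ _ _⟩

/-- **AS5**: degree zero is Zariski-local on the base. -/
theorem localP : Stmt.LocalP c ε := by
  intro T t ι U hU M hM
  refine fibrewiseAlgEquivZero_of_forall_factors
    (fun i => (⟨(U i).ι, rfl⟩ : SchemeHomOver ((U i).ι ≫ t) t)) M ?_ hM
  intro K _ _ s
  exact exists_lift_of_iSup_eq_top U hU s

end

end Fermat.Agent.S25.H205
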