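import Fermat.Agent.S25.Defs
import Fermat.Agent.S25.H205.LocalP

/-!
# S25: `Stmt.Def` needs no degree bookkeeping

Geometric points do not see nilpotents, so in `Stmt.Def` the lifted bundle is automatically
fibrewise algebraically equivalent to zero:

* `exists_factor_of_nil`: every `Spec K ⟶ Spec A` (`K` a field) factors through `Spec (A ⧸ I)` for
  a nil ideal `I`.
* `fibrewiseAlgEquivZero_of_pullbackAlong_mk`: `FibrewiseAlgEquivZero` descends along
  `Spec (A ⧸ I) ⟶ Spec A`, `I` nil.
* `def_of_lift`: `Stmt.Def` follows from the bare lifting statement.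
-/

set_option autoImplicit false

universe u

open CategoryTheory CategoryTheory.Limits AlgebraicGeometry AlgebraicGeometry.RelPicard
  NeronModelInfra GoodReductionJacobian

namespace Fermat.Agent.S25.H205

section

variable {k : Type u} [Field k] {C : Scheme.{u}} (c : C ⟶ Spec (CommRingCat.of k))
  (ε : SchemeHomOver (𝟙 (Spec (CommRingCat.of k))) c)

/-- A morphism from the spectrum of a field to `Spec A` factors through `Spec (A ⧸ I)` when
`I` consists of nilpotent elements. -/
theorem exists_factor_of_nil {A : Type u} [CommRing A] (I : Ideal A) (hI : I ≤ nilradical A)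
    {K : Type u} [Field K] (s : Spec (CommRingCat.of K) ⟶ Spec (CommRingCat.of A)) :
    ∃ s' : Spec (CommRingCat.of K) ⟶ Spec (CommRingCat.of (A ⧸ I)),
      s' ≫ Spec.map (CommRingCat.ofHom (Ideal.Quotient.mk I)) = s := by
  let σ : A →+* K := (Spec.preimage s).hom
  have hσ : ∀ a ∈ I, σ a = 0 := by
    intro a ha
    obtain ⟨n, hn⟩ := hI ha
    have : σ a ^ n = 0 := by rw [← map_pow, hn, map_zero]
    exact eq_zero_of_pow_eq_zero this
  refine ⟨Spec.map (CommRingCat.ofHom (Ideal.Quotient.lift I σ hσ)), ?_⟩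
  rw [← Spec.map_comp, ← CommRingCat.ofHom_comp]
  have : (Ideal.Quotient.lift I σ hσ).comp (Ideal.Quotient.mk I) = σ := by
    ext a; simp
  rw [this]
  exact Spec.map_preimage s

variable {c ε}

/-- `FibrewiseAlgEquivZero` descends along a nilpotent thickening of affine bases. -/
theorem fibrewiseAlgEquivZero_of_pullbackAlong_mk {A : Type u} [CommRing A] [Algebra k A]
    (I : Ideal A) (hI : I ≤ nilradical A) (M : RigidifiedLineBundle c ε (specStr k A))
    (hM : FibrewiseAlgEquivZero (M.pullbackAlong (specHomOver k (Ideal.Quotient.mkₐ k I)))) :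
    FibrewiseAlgEquivZero M := by
  refine fibrewiseAlgEquivZero_of_forall_factors (ι := Unit)
    (fun _ => specHomOver k (Ideal.Quotient.mkₐ k I)) M ?_ (fun _ => hM)
  intro K _ _ s
  obtain ⟨s', hs'⟩ := exists_factor_of_nil I hI s
  exact ⟨(), s', hs'⟩

variable (c ε)

/-- `Stmt.Def` follows from the bare lifting statement (no degree condition on the lift). -/
theorem def_of_lift
    (hlift : ∀ (A : Type u) [CommRing A] [Algebra k A] (I : Ideal A), I ^ 2 = ⊥ →
      ∀ M₀ : RigidifiedLineBundle c ε (specStr k (A ⧸ I)), FibrewiseAlgEquivZero M₀ →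
        ∃ M : RigidifiedLineBundle c ε (specStr k A),
          RIso (M.pullbackAlong (specHomOver k (Ideal.Quotient.mkₐ k I))) M₀) :
    Stmt.Def c ε := by
  intro A _ _ I hI M₀ hM₀
  obtain ⟨M, hM⟩ := hlift A I hI M₀ hM₀
  refine ⟨M, ?_, hM⟩
  have hle : I ≤ nilradical A := by
    intro x hx
    refine ⟨2, ?_⟩
    have : x ^ 2 ∈ I ^ 2 := Ideal.pow_mem_pow hx 2
    rw [hI] at this
    simpa using this
  refine fibrewiseAlgEquivZero_of_pullbackAlong_mk I hle M ?_
  exact FibrewiseAlgEquivZero.congr (M := M₀) ⟨hM.some.symm⟩ hM₀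

end

end Fermat.Agent.S25.H205
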