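import Fermat.Agent.S25.DefsDict
import Fermat.Agent.S25.H205.DefReduce

/-!
# Row S25, bridge AS7: `Stmt.Def` from the dictionary and `Stmt.AlgDef` (formal)

* `glueDatum_isIso_refl`, `glueDatum_isIso_symm`, `glueDatum_isIso_trans`: `GlueDatum.IsIso` is an
  equivalence relation (GDC facts).
* `RigLift`: the GDC fact "rigidifiability lifts along square-zero surjections", as a `Prop`.
* `def_of_alg`: `ChartOf → DictSections → DictGlue → DictIso → DictBC → AlgDef → RigLift → Stmt.Def`.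
  (No `DictDeg` is needed: geometric points do not see nilpotents, `def_of_lift`.)
-/

set_option autoImplicit false

universe u

open CategoryTheory CategoryTheory.Limits AlgebraicGeometry AlgebraicGeometry.RelPicard
  NeronModelInfra GoodReductionJacobian
open scoped TensorProduct

namespace Fermat.Agent.S25.H205

section GDC

variable {A R₀ R₁ R₀₁ : Type u} [CommRing A] [CommRing R₀] [CommRing R₁]
    [CommRing R₀₁] [Algebra A R₀] [Algebra A R₁] [Algebra A R₀₁] [Algebra R₀ R₀₁]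
    [Algebra R₁ R₀₁] [IsScalarTower A R₀ R₀₁] [IsScalarTower A R₁ R₀₁]

theorem glueDatum_isIso_refl (G : GlueDatum A R₀ R₁ R₀₁) : G.IsIso G :=
  ⟨⟨LinearEquiv.refl _ _, LinearEquiv.refl _ _, LinearEquiv.refl _ _, fun _ => rfl,
    fun _ => rfl⟩⟩

theorem glueDatum_isIso_symm {G G' : GlueDatum A R₀ R₁ R₀₁} (h : G.IsIso G') : G'.IsIso G := by
  obtain ⟨e⟩ := h
  refine ⟨⟨e.e₀.symm, e.e₁.symm, e.e₀₁.symm, fun s => ?_, fun s => ?_⟩⟩
  · apply e.e₀₁.injective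
    rw [LinearEquiv.apply_symm_apply, e.comm₀, LinearEquiv.apply_symm_apply]
  · apply e.e₀₁.injective
    rw [LinearEquiv.apply_symm_apply, e.comm₁, LinearEquiv.apply_symm_apply]

theorem glueDatum_isIso_trans {G G' G'' : GlueDatum A R₀ R₁ R₀₁} (h : G.IsIso G')
    (h' : G'.IsIso G'') : G.IsIso G'' := by
  obtain ⟨e⟩ := h
  obtain ⟨e'⟩ := h'
  refine ⟨⟨e.e₀.trans e'.e₀, e.e₁.trans e'.e₁, e.e₀₁.trans e'.e₀₁, fun s => ?_, fun s => ?_⟩⟩
  · simp only [LinearEquiv.trans_apply, e.comm₀, e'.comm₀]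
  · simp only [LinearEquiv.trans_apply, e.comm₁, e'.comm₁]

end GDC

section Bridge

variable {k : Type u} [Field k]

/-- GDC fact (as a `Prop`): rigidifiability lifts along square-zero surjections. -/
def RigLift (B₀ B₁ B₀₁ : Type u) [CommRing B₀] [CommRing B₁] [CommRing B₀₁]
    [Algebra k B₀] [Algebra k B₁] [Algebra k B₀₁] [Algebra B₀ B₀₁] [Algebra B₁ B₀₁]
    [IsScalarTower k B₀ B₀₁] [IsScalarTower k B₁ B₀₁] (e : B₁ →ₐ[k] k) : Prop :=
  ∀ (A : Type u) [CommRing A] [Algebra k A] (I : Ideal A), I ^ 2 = ⊥ →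
    ∀ (G : CurveGD k B₀ B₁ B₀₁ A) (G₀ : CurveGD k B₀ B₁ B₀₁ (A ⧸ I)),
      CurveGD.IsBC (Ideal.Quotient.mkₐ k I) G G₀ → G₀.Rigidifiable e → G.Rigidifiable e

variable {C : Scheme.{u}} {c : C ⟶ Spec (CommRingCat.of k)}
  {ε : SchemeHomOver (𝟙 (Spec (CommRingCat.of k))) c}

/-- **AS7**: `Def` follows formally from the dictionary, `AlgDef` and the GDC fact `RigLift`. -/
theorem def_of_alg (Ch : ChartOf c ε) (hSec : Stmt.DictSections Ch) (hGlue : Stmt.DictGlue Ch)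
    (hIso : Stmt.DictIso Ch) (hBC : Stmt.DictBC Ch)
    (hDef : Stmt.AlgDef k Ch.B₀ Ch.B₁ Ch.B₀₁) (hRig : RigLift Ch.B₀ Ch.B₁ Ch.B₀₁ Ch.e) :
    Stmt.Def c ε := by
  refine def_of_lift c ε fun A _ _ I hI M₀ _ => ?_
  obtain ⟨G₀, hG₀, hrig₀⟩ := hSec (A ⧸ I) M₀
  obtain ⟨G, hG⟩ := hDef Ch.x Ch.y Ch.e Ch.isCurveChart A I hI G₀
  obtain ⟨M, hM⟩ := hGlue A G (hRig A I hI G G₀ hG hrig₀)
  refine ⟨M, ?_⟩
  have h1 := hBC A (A ⧸ I) (Ideal.Quotient.mkₐ k I) M G G₀ hM hG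
  exact (hIso (A ⧸ I) _ M₀ G₀ G₀ h1 hG₀).2 (glueDatum_isIso_refl G₀)

end Bridge

end Fermat.Agent.S25.H205
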