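import Fermat.Agent.S25.DefsAlg

/-!
# Row S25, block GDC (gluing-datum calculus, pure algebra): basic facts

* `isSemilinearBaseChange_comp_equiv`: a semilinear base-change map followed by a linear
  equivalence of the targets is a semilinear base-change map.
* `GlueDatum` : `isBC_of_isIso_right` (`IsBC` is invariant under `IsIso` of the target),
  `isBC_of_isIso_left` (and of the source).
-/

set_option autoImplicit false

universe u

open scoped TensorProduct

namespace Fermat.Agent.S25.H205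

section Semilinear

variable {R R' : Type u} [CommRing R] [CommRing R'] (ρ : R →+* R')
  {N N' N'' : Type u} [AddCommGroup N] [Module R N] [AddCommGroup N'] [Module R' N']
  [AddCommGroup N''] [Module R' N'']

/-- Post-composition of a semilinear base-change map with a linear equivalence. -/
theorem isSemilinearBaseChange_comp_equiv (b : N →ₛₗ[ρ] N') (hb : IsSemilinearBaseChange ρ b)
    (e : N' ≃ₗ[R'] N'') : IsSemilinearBaseChange ρ (e.toLinearMap.comp b) := by
  unfold IsSemilinearBaseChange at hb ⊢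
  let : Algebra R R' := ρ.toAlgebra
  let : Module R N' := Module.compHom N' ρ
  let : Module R N'' := Module.compHom N'' ρ
  have : IsScalarTower R R' N' := ⟨fun r r' n => by
    change (ρ r * r') • n = ρ r • (r' • n); rw [mul_smul]⟩
  have : IsScalarTower R R' N'' := ⟨fun r r' n => by
    change (ρ r * r') • n = ρ r • (r' • n); rw [mul_smul]⟩
  refine (IsBaseChange.iff_of_equiv_comm (LinearEquiv.refl R N) e ?_).mp hb
  ext n
  rfl

/-- Pre-composition of a semilinear base-change map with a linear equivalence. -/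
theorem isSemilinearBaseChange_equiv_comp {N₁ : Type u} [AddCommGroup N₁] [Module R N₁]
    (b : N →ₛₗ[ρ] N') (hb : IsSemilinearBaseChange ρ b)
    (e : N₁ ≃ₗ[R] N) : IsSemilinearBaseChange ρ (b.comp e.toLinearMap) := by
  unfold IsSemilinearBaseChange at hb ⊢
  let : Algebra R R' := ρ.toAlgebra
  let : Module R N' := Module.compHom N' ρ
  have : IsScalarTower R R' N' := ⟨fun r r' n => by
    change (ρ r * r') • n = ρ r • (r' • n); rw [mul_smul]⟩
  refine (IsBaseChange.iff_of_equiv_comm e (LinearEquiv.refl R' N') ?_).mpr hb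
  ext n
  rfl

end Semilinear

section GD

variable {A R₀ R₁ R₀₁ : Type u} [CommRing A] [CommRing R₀] [CommRing R₁]
    [CommRing R₀₁] [Algebra A R₀] [Algebra A R₁] [Algebra A R₀₁] [Algebra R₀ R₀₁]
    [Algebra R₁ R₀₁] [IsScalarTower A R₀ R₀₁] [IsScalarTower A R₁ R₀₁]
    {A' R₀' R₁' R₀₁' : Type u} [CommRing A'] [CommRing R₀'] [CommRing R₁']
    [CommRing R₀₁'] [Algebra A' R₀'] [Algebra A' R₁'] [Algebra A' R₀₁'] [Algebra R₀' R₀₁']
    [Algebra R₁' R₀₁'] [IsScalarTower A' R₀' R₀₁'] [IsScalarTower A' R₁' R₀₁']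
    {ρ₀ : R₀ →+* R₀'} {ρ₁ : R₁ →+* R₁'} {ρ₀₁ : R₀₁ →+* R₀₁'}

/-- `IsBC` is invariant under isomorphism of the target. -/
theorem isBC_of_isIso_right {G : GlueDatum A R₀ R₁ R₀₁} {G' G'' : GlueDatum A' R₀' R₁' R₀₁'}
    (h : GlueDatum.IsBC ρ₀ ρ₁ ρ₀₁ G G') (hi : G'.IsIso G'') :
    GlueDatum.IsBC ρ₀ ρ₁ ρ₀₁ G G'' := by
  obtain ⟨b⟩ := h
  obtain ⟨e⟩ := hi
  exact ⟨{
    b₀ := e.e₀.toLinearMap.comp b.b₀
    b₁ := e.e₁.toLinearMap.comp b.b₁
    b₀₁ := e.e₀₁.toLinearMap.comp b.b₀₁
    comm₀ := fun s => by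
      simp only [LinearMap.coe_comp, LinearEquiv.coe_coe, Function.comp_apply, b.comm₀, e.comm₀]
    comm₁ := fun s => by
      simp only [LinearMap.coe_comp, LinearEquiv.coe_coe, Function.comp_apply, b.comm₁, e.comm₁]
    isBaseChange₀ := isSemilinearBaseChange_comp_equiv _ _ b.isBaseChange₀ _
    isBaseChange₁ := isSemilinearBaseChange_comp_equiv _ _ b.isBaseChange₁ _
    isBaseChange₀₁ := isSemilinearBaseChange_comp_equiv _ _ b.isBaseChange₀₁ _ }⟩

/-- `IsBC` is invariant under isomorphism of the source. -/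
theorem isBC_of_isIso_left {G₁ G : GlueDatum A R₀ R₁ R₀₁} {G' : GlueDatum A' R₀' R₁' R₀₁'}
    (hi : G₁.IsIso G) (h : GlueDatum.IsBC ρ₀ ρ₁ ρ₀₁ G G') :
    GlueDatum.IsBC ρ₀ ρ₁ ρ₀₁ G₁ G' := by
  obtain ⟨b⟩ := h
  obtain ⟨e⟩ := hi
  exact ⟨{
    b₀ := b.b₀.comp e.e₀.toLinearMap
    b₁ := b.b₁.comp e.e₁.toLinearMap
    b₀₁ := b.b₀₁.comp e.e₀₁.toLinearMap
    comm₀ := fun s => by
      simp only [LinearMap.coe_comp, LinearEquiv.coe_coe, Function.comp_apply, e.comm₀, b.comm₀]
    comm₁ := fun s => by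
      simp only [LinearMap.coe_comp, LinearEquiv.coe_coe, Function.comp_apply, e.comm₁, b.comm₁]
    isBaseChange₀ := isSemilinearBaseChange_equiv_comp _ _ b.isBaseChange₀ _
    isBaseChange₁ := isSemilinearBaseChange_equiv_comp _ _ b.isBaseChange₁ _
    isBaseChange₀₁ := isSemilinearBaseChange_equiv_comp _ _ b.isBaseChange₀₁ _ }⟩

end GD

end Fermat.Agent.S25.H205
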