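import Fermat.Agent.S25.H11.ACDefs
import Fermat.Agent.S25.H265.GDCBaseChange

/-!
# Row S25, block ALGCHARTS: leaves GDC1–GDC7 (helper205)

The seven gluing-datum-calculus inputs of helper11's ALGCHARTS skeleton
(`origin/helper11:coord/S25-ALGCHARTS-skeleton.lean`), in EXACTLY the skeleton shapes (same
binders, same variable block).  All are read off helper265's GDC library on main.
-/

set_option autoImplicit false

universe u

open scoped TensorProduct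

namespace Fermat.Agent.S25.H205

open Fermat.Agent.S25 Fermat.Agent.S25.H11

variable {k : Type u} [Field k] [IsAlgClosed k]
  {B₀ B₁ B₀₁ : Type u} [CommRing B₀] [CommRing B₁] [CommRing B₀₁]
  [Algebra k B₀] [Algebra k B₁] [Algebra k B₀₁] [Algebra B₀ B₀₁] [Algebra B₁ B₀₁]
  [IsScalarTower k B₀ B₀₁] [IsScalarTower k B₁ B₀₁]
  {x : B₀} {y : B₁} {e : B₁ →ₐ[k] k}

section GDC

variable {A A' A'' : Type u} [CommRing A] [Algebra k A] [CommRing A'] [Algebra k A']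
  [CommRing A''] [Algebra k A'']

/-- GDC1. -/
theorem gdc_exists (φ : A →ₐ[k] A') (G : CurveGD k B₀ B₁ B₀₁ A) :
    ∃ G' : CurveGD k B₀ B₁ B₀₁ A', CurveGD.IsBC φ G G' :=
  H265.curveGD_exists_isBC φ G

/-- GDC2. -/
theorem gdc_id {G G' : CurveGD k B₀ B₁ B₀₁ A} (h : G.IsIso G') :
    CurveGD.IsBC (AlgHom.id k A) G G' :=
  H265.curveGD_isBC_of_isIso_right (H265.curveGD_isBC_id G) h

/-- GDC3. -/
theorem gdc_isIso_of_id {G G' : CurveGD k B₀ B₁ B₀₁ A}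
    (h : CurveGD.IsBC (AlgHom.id k A) G G') : G.IsIso G' :=
  H265.curveGD_isIso_of_isBC (H265.curveGD_isBC_id G) h

/-- GDC4. -/
theorem gdc_comp {φ : A →ₐ[k] A'} {ψ : A' →ₐ[k] A''} {G : CurveGD k B₀ B₁ B₀₁ A}
    {G' : CurveGD k B₀ B₁ B₀₁ A'} {G'' : CurveGD k B₀ B₁ B₀₁ A''}
    (h : CurveGD.IsBC φ G G') (h' : CurveGD.IsBC ψ G' G'') :
    CurveGD.IsBC (ψ.comp φ) G G'' :=
  H265.curveGD_isBC_comp h h'

/-- GDC5 (cancellation). -/
theorem gdc_cancel {φ : A →ₐ[k] A'} {ψ : A' →ₐ[k] A''} {G : CurveGD k B₀ B₁ B₀₁ A}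
    {G' : CurveGD k B₀ B₁ B₀₁ A'} {G'' : CurveGD k B₀ B₁ B₀₁ A''}
    (h : CurveGD.IsBC φ G G') (h' : CurveGD.IsBC (ψ.comp φ) G G'') :
    CurveGD.IsBC ψ G' G'' :=
  H265.curveGD_isBC_of_comp h h'

/-- GDC6. -/
theorem gdc_rig {φ : A →ₐ[k] A'} {G : CurveGD k B₀ B₁ B₀₁ A} {G' : CurveGD k B₀ B₁ B₀₁ A'}
    (h : CurveGD.IsBC φ G G') (hr : G.Rigidifiable e) : G'.Rigidifiable e :=
  H265.rigidifiable_of_isBC h hr

/-- GDC7. -/
theorem gdc_deg0 {φ : A →ₐ[k] A'} {G : CurveGD k B₀ B₁ B₀₁ A} {G' : CurveGD k B₀ B₁ B₀₁ A'}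
    (h : CurveGD.IsBC φ G G') (hd : G.Deg0) : G'.Deg0 :=
  H265.deg0_of_isBC h hd

end GDC

end Fermat.Agent.S25.H205
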