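import Fermat.Agent.S25.DefsAlg
import Fermat.Agent.S25.H550.GDBaseChangeLin

/-!
# Row S25, block ALGCHARTS: semilinear base change along `A ⊗ B → A' ⊗ B`, seen over `A → A'`
(helper205)

`b : N → N'` a semilinear base change along `tensorMapLeft k ψ B : A ⊗[k] B → A' ⊗[k] B`.
Then `N'` is also the base change of `N` along `ψ : A → A'`:

* `pbc_mem_span_range` : `N'` is spanned over `A'` by the image of `b`;
* `pbc_exists_lift` : `ψ`-semilinear maps out of `N` extend to `A'`-linear maps out of `N'`;
* `pbc_smul_top_le`, `pbc_map_mem_smul_top`, `pbc_span_singleton` : extension of submodules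
  `J • ⊤` and `span {n}`.
-/

set_option autoImplicit false

universe u

open scoped TensorProduct

namespace Fermat.Agent.S25.H205

open Fermat.Agent.S25

section General

variable {k : Type u} [Field k] {A A' : Type u} [CommRing A] [Algebra k A] [CommRing A']
  [Algebra k A'] (ψ : A →ₐ[k] A') {B : Type u} [CommRing B] [Algebra k B]
  {N N' : Type u} [AddCommGroup N] [Module (A ⊗[k] B) N] [Module A N]
  [IsScalarTower A (A ⊗[k] B) N]
  [AddCommGroup N'] [Module (A' ⊗[k] B) N'] [Module A' N'] [IsScalarTower A' (A' ⊗[k] B) N']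
  (b : N →ₛₗ[tensorMapLeft k ψ B] N')

omit [IsScalarTower A (A ⊗[k] B) N] [IsScalarTower A' (A' ⊗[k] B) N'] [Module A N]
  [Module A' N'] in
theorem pbc_tensorMapLeft_tmul (a : A) (β : B) :
    tensorMapLeft k ψ B (a ⊗ₜ[k] β) = ψ a ⊗ₜ[k] β := by
  simp [tensorMapLeft]

/-- `b` is `ψ`-semilinear for the `A`- and `A'`-module structures. -/
theorem pbc_map_smul_base (a : A) (n : N) : b (a • n) = ψ a • b n := by
  rw [← algebraMap_smul (A ⊗[k] B) a n, b.map_smulₛₗ,
    ← algebraMap_smul (A' ⊗[k] B) (ψ a) (b n)]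
  congr 1

/-- `N'` is spanned over `A'` by the image of `b`. -/
theorem pbc_mem_span_range (hb : IsSemilinearBaseChange (tensorMapLeft k ψ B) b) (n' : N') :
    n' ∈ Submodule.span A' (Set.range b) := by
  let _ : Algebra A A' := ψ.toRingHom.toAlgebra
  have : IsScalarTower k A A' := IsScalarTower.of_algebraMap_eq' ψ.comp_algebraMap.symm
  obtain ⟨E, hE⟩ := H550.exists_equiv_of_isSemilinearBaseChange_tensor ψ (fun _ => rfl) B b hb
  obtain ⟨z, rfl⟩ := E.surjective n'
  induction z using TensorProduct.induction_on with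
  | zero => simp
  | tmul s n =>
    rw [hE]
    exact Submodule.smul_mem _ _ (Submodule.subset_span ⟨n, rfl⟩)
  | add x y hx hy =>
    rw [map_add]
    exact Submodule.add_mem _ hx hy

/-- Induction principle: a property of elements of `N'` which holds on the image of `b` and is
stable under `A'`-linear combinations holds everywhere. -/
theorem pbc_induction (hb : IsSemilinearBaseChange (tensorMapLeft k ψ B) b)
    (P : Submodule A' N') (h : ∀ n, b n ∈ P) (n' : N') : n' ∈ P := by
  have := pbc_mem_span_range ψ b hb n'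
  refine (Submodule.span_le (p := P)).mpr ?_ this
  rintro _ ⟨n, rfl⟩
  exact h n

/-- `ψ`-semilinear maps out of `N` extend to `A'`-linear maps out of `N'`. -/
theorem pbc_exists_lift (hb : IsSemilinearBaseChange (tensorMapLeft k ψ B) b)
    {W : Type u} [AddCommGroup W] [Module A' W] (g : N →ₛₗ[ψ.toRingHom] W) :
    ∃ g' : N' →ₗ[A'] W, ∀ n, g' (b n) = g n := by
  let _ : Algebra A A' := ψ.toRingHom.toAlgebra
  have : IsScalarTower k A A' := IsScalarTower.of_algebraMap_eq' ψ.comp_algebraMap.symm
  let _ : Module A W := Module.compHom W ψ.toRingHom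
  have : IsScalarTower A A' W := ⟨fun r r' m => by
    change (ψ.toRingHom r * r') • m = ψ.toRingHom r • (r' • m)
    rw [mul_smul]⟩
  obtain ⟨E, hE⟩ := H550.exists_equiv_of_isSemilinearBaseChange_tensor ψ (fun _ => rfl) B b hb
  let g₁ : N →ₗ[A] W :=
    { toFun := fun n => g n
      map_add' := fun m n => g.map_add m n
      map_smul' := fun a n => g.map_smulₛₗ a n }
  refine ⟨(g₁.liftBaseChange A').comp E.symm.toLinearMap, fun n => ?_⟩
  have h1 : E.symm (b n) = (1 : A') ⊗ₜ[A] n := by
    rw [LinearEquiv.symm_apply_eq, hE, one_smul]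
  rw [LinearMap.comp_apply, LinearEquiv.coe_coe, h1, LinearMap.liftBaseChange_tmul, one_smul]
  rfl

omit [Module A N] [IsScalarTower A (A ⊗[k] B) N] [Module A' N']
  [IsScalarTower A' (A' ⊗[k] B) N'] in
/-- The image of `J • ⊤` lies in `(J.map ρ) • ⊤`. -/
theorem pbc_map_mem_smul_top (J : Ideal (A ⊗[k] B)) {v : N}
    (hv : v ∈ J • (⊤ : Submodule (A ⊗[k] B) N)) :
    b v ∈ (J.map (tensorMapLeft k ψ B)) • (⊤ : Submodule (A' ⊗[k] B) N') := by
  refine Submodule.smul_induction_on hv (fun r hr n _ => ?_) (fun x y hx hy => ?_)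
  · rw [b.map_smulₛₗ]
    exact Submodule.smul_mem_smul (Ideal.mem_map_of_mem _ hr) Submodule.mem_top
  · rw [map_add]
    exact Submodule.add_mem _ hx hy

/-- `(J.map ρ) • ⊤` is spanned over `A'` by the image of `J • ⊤`. -/
theorem pbc_smul_top_le (hb : IsSemilinearBaseChange (tensorMapLeft k ψ B) b)
    (J : Ideal (A ⊗[k] B)) {v' : N'}
    (hv' : v' ∈ (J.map (tensorMapLeft k ψ B)) • (⊤ : Submodule (A' ⊗[k] B) N')) :
    v' ∈ Submodule.span A'
      (b '' ((J • (⊤ : Submodule (A ⊗[k] B) N) : Submodule (A ⊗[k] B) N) : Set N)) := by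
  set P : Submodule A' N' := Submodule.span A'
      (b '' ((J • (⊤ : Submodule (A ⊗[k] B) N) : Submodule (A ⊗[k] B) N) : Set N)) with hP
  -- `P` is stable under `A' ⊗ B`
  have step1 : ∀ (c : A' ⊗[k] B) (p : N'), p ∈ P → c • p ∈ P := by
    intro c p hp
    induction c using TensorProduct.induction_on with
    | zero => rw [zero_smul]; exact P.zero_mem
    | tmul a' β =>
      induction hp using Submodule.span_induction with
      | mem p hp =>
        obtain ⟨v, hv, rfl⟩ := hp
        have h1 : (a' ⊗ₜ[k] β : A' ⊗[k] B) = a' • ((1 : A') ⊗ₜ[k] β) := by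
          rw [TensorProduct.smul_tmul', smul_eq_mul, mul_one]
        have h2 : ((1 : A') ⊗ₜ[k] β : A' ⊗[k] B) • b v = b (((1 : A) ⊗ₜ[k] β : A ⊗[k] B) • v) := by
          rw [b.map_smulₛₗ, pbc_tensorMapLeft_tmul, map_one]
        rw [h1, smul_assoc, h2]
        refine P.smul_mem _ (Submodule.subset_span ⟨_, ?_, rfl⟩)
        exact Submodule.smul_mem _ _ hv
      | zero => rw [smul_zero]; exact P.zero_mem
      | add p p' _ _ h h' => rw [smul_add]; exact P.add_mem h h'
      | smul a'' p _ h => rw [smul_comm]; exact P.smul_mem _ h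
    | add c c' h h' => rw [add_smul]; exact P.add_mem h h'
  let P' : Submodule (A' ⊗[k] B) N' :=
    { carrier := P
      add_mem' := fun h h' => P.add_mem h h'
      zero_mem' := P.zero_mem
      smul_mem' := fun c p hp => step1 c p hp }
  have step3 : (J.map (tensorMapLeft k ψ B)) • (⊤ : Submodule (A' ⊗[k] B) N') ≤ P' := by
    rw [Submodule.smul_le]
    intro r' hr' n' _
    show r' • n' ∈ P
    rw [Ideal.map] at hr'
    induction hr' using Submodule.span_induction with
    | mem r' hr' =>
      obtain ⟨r, hr, rfl⟩ := hr'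
      let Q : Submodule A' N' :=
        { carrier := {m | tensorMapLeft k ψ B r • m ∈ P}
          add_mem' := fun {m m'} h h' => by
            show _ • (m + m') ∈ P
            rw [smul_add]; exact P.add_mem h h'
          zero_mem' := by
            show _ • (0 : N') ∈ P
            rw [smul_zero]; exact P.zero_mem
          smul_mem' := fun a'' m h => by
            show _ • (a'' • m) ∈ P
            rw [smul_comm]; exact P.smul_mem _ h }
      refine pbc_induction ψ b hb Q (fun n => ?_) n'
      show tensorMapLeft k ψ B r • b n ∈ P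
      rw [← b.map_smulₛₗ]
      exact Submodule.subset_span ⟨_, Submodule.smul_mem_smul hr Submodule.mem_top, rfl⟩
    | zero => rw [zero_smul]; exact P.zero_mem
    | add r r' _ _ h h' => rw [add_smul]; exact P.add_mem h h'
    | smul c r _ h => rw [smul_eq_mul, mul_smul]; exact step1 c _ h
  exact step3 hv'

/-- Extension of a generator: if `n` generates `J • ⊤`, then `b n` generates `(J.map ρ) • ⊤`. -/
theorem pbc_span_singleton (hb : IsSemilinearBaseChange (tensorMapLeft k ψ B) b)
    (J : Ideal (A ⊗[k] B)) (n : N)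
    (h : Submodule.span (A ⊗[k] B) {n} = J • (⊤ : Submodule (A ⊗[k] B) N)) :
    Submodule.span (A' ⊗[k] B) {b n} =
      (J.map (tensorMapLeft k ψ B)) • (⊤ : Submodule (A' ⊗[k] B) N') := by
  apply le_antisymm
  · rw [Submodule.span_le, Set.singleton_subset_iff]
    refine pbc_map_mem_smul_top ψ b J ?_
    rw [← h]
    exact Submodule.mem_span_singleton_self n
  · intro v' hv'
    have h1 := pbc_smul_top_le ψ b hb J hv'
    rw [← h] at h1
    have h2 : Submodule.span A' (b '' ((Submodule.span (A ⊗[k] B) {n} :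
        Submodule (A ⊗[k] B) N) : Set N)) ≤
        (Submodule.span (A' ⊗[k] B) {b n}).restrictScalars A' := by
      rw [Submodule.span_le]
      rintro _ ⟨v, hv, rfl⟩
      obtain ⟨r, rfl⟩ := Submodule.mem_span_singleton.mp hv
      show b (r • n) ∈ Submodule.span (A' ⊗[k] B) {b n}
      rw [b.map_smulₛₗ]
      exact Submodule.smul_mem _ _ (Submodule.mem_span_singleton_self _)
    exact h2 h1

end General

end Fermat.Agent.S25.H205
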