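import Fermat.Agent.S25.H11.ACLeaves
import Fermat.Agent.S25.H970.ACSec
import Fermat.Agent.S25.H147.GraphIdealMap
import Fermat.Agent.S25.H205.ACPbcCore

/-!
# Row S25, block ALGCHARTS: leaf PT-BC (helper205)

`pointCond_bc` (skeleton statement of helper11, verbatim) and
`pointBC : H11.Leaf.PointBC k B₀ B₁ B₀₁`: the point conditions of a chart are compatible with
base change, with Hilbert coordinates `ψ ∘ φ₀`.

Reusable intermediate statements (all for `bm : BaseChangeMaps` of a base change `G'` of `G`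
along `ψ : A → A'`):

* `ptIdeal_map_tensorMapLeft` : `(ptIdeal q A).map (A ⊗ B₀ → A' ⊗ B₀) = ptIdeal q A'`;
* `p1_of_baseChangeMaps` : `P1 G → P1 G'`;
* `mem_span_image_of_mem_secq` : under `P1 G`, `H⁰(G'(nE₀ - Σq))` is spanned over `A'` by the
  image of `H⁰(G(nE₀ - Σq))` (right exactness of base change; no flatness needed);
* `genModY_of_baseChangeMaps`, `isGen_of_baseChangeMaps`;
* `p2_of_baseChangeMaps`, `p3_of_baseChangeMaps`.
-/

set_option autoImplicit false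

universe u

open scoped TensorProduct

namespace Fermat.Agent.S25.H205

open Fermat.Agent.S25 Fermat.Agent.S25.H11

section

variable {k : Type u} [Field k]
  {B₀ B₁ B₀₁ : Type u} [CommRing B₀] [CommRing B₁] [CommRing B₀₁]
  [Algebra k B₀] [Algebra k B₁] [Algebra k B₀₁] [Algebra B₀ B₀₁] [Algebra B₁ B₀₁]
  [IsScalarTower k B₀ B₀₁] [IsScalarTower k B₁ B₀₁]
  {x : B₀} {y : B₁} {e : B₁ →ₐ[k] k}
  {A A' : Type u} [CommRing A] [Algebra k A] [CommRing A'] [Algebra k A']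

theorem tensorMapLeft_yElt (ψ : A →ₐ[k] A') (y : B₁) :
    tensorMapLeft k ψ B₁ (yElt k A y) = yElt k A' y := by
  simp [tensorMapLeft, yElt]

/-- The ideal of a tuple of points commutes with base change. -/
theorem ptIdeal_map_tensorMapLeft (ψ : A →ₐ[k] A') {m : ℕ} (q : Fin m → (B₀ →ₐ[k] k)) :
    (ptIdeal q A).map (tensorMapLeft k ψ B₀) = ptIdeal q A' := by
  unfold ptIdeal
  have h := map_prod (Ideal.mapHom (tensorMapLeft k ψ B₀))
    (fun i => RingHom.ker (ptHom (q i) A)) Finset.univ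
  refine h.trans (Finset.prod_congr rfl (fun i _ => ?_))
  have h1 := H147.graphIdeal_map' ψ ((Algebra.ofId k A).comp (q i))
  have h2 : ψ.comp ((Algebra.ofId k A).comp (q i)) = (Algebra.ofId k A').comp (q i) := by
    ext b
    simp [Algebra.ofId_apply]
  rw [h2] at h1
  exact h1

variable {G : CurveGD k B₀ B₁ B₀₁ A} {G' : CurveGD k B₀ B₁ B₀₁ A'}

/-- The image of a section vanishing on `Σ q` vanishes on `Σ q`. -/
theorem map_mem_vanq (ψ : A →ₐ[k] A')
    (bm : GlueDatum.BaseChangeMaps (tensorMapLeft k ψ B₀) (tensorMapLeft k ψ B₁)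
      (tensorMapLeft k ψ B₀₁) G G') {m : ℕ} (q : Fin m → (B₀ →ₐ[k] k)) {a : G.N₀} (ha : a ∈ vanq q G) :
    bm.b₀ a ∈ vanq q G' := by
  have := pbc_map_mem_smul_top ψ bm.b₀ (ptIdeal q A) ha
  rwa [ptIdeal_map_tensorMapLeft] at this

/-- `vanq q G'` is spanned over `A'` by the image of `vanq q G`. -/
theorem mem_span_image_of_mem_vanq (ψ : A →ₐ[k] A')
    (bm : GlueDatum.BaseChangeMaps (tensorMapLeft k ψ B₀) (tensorMapLeft k ψ B₁)
      (tensorMapLeft k ψ B₀₁) G G') {m : ℕ} (q : Fin m → (B₀ →ₐ[k] k)) {a' : G'.N₀}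
    (ha' : a' ∈ vanq q G') :
    a' ∈ Submodule.span A' (bm.b₀ '' ((vanq q G : Submodule (A ⊗[k] B₀) G.N₀) : Set G.N₀)) := by
  refine pbc_smul_top_le ψ bm.b₀ bm.isBaseChange₀ (ptIdeal q A) ?_
  rw [ptIdeal_map_tensorMapLeft]
  exact ha'

/-- The image of a section of `G(nE₀)` is a section of `G'(nE₀)`. -/
theorem map_mem_sec (ψ : A →ₐ[k] A')
    (bm : GlueDatum.BaseChangeMaps (tensorMapLeft k ψ B₀) (tensorMapLeft k ψ B₁)
      (tensorMapLeft k ψ B₀₁) G G') (x : B₀) (n : ℕ) {s : G.N₀ × G.N₁} (hs : s ∈ sec x n G) :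
    (bm.b₀ s.1, bm.b₁ s.2) ∈ sec x n G' :=
  (H970.secMap ψ bm x n ⟨s, hs⟩).2

/-- `P1` is stable under base change. -/
theorem p1_of_baseChangeMaps (hC : IsCurveChart k B₀ B₁ B₀₁ x y e) (ψ : A →ₐ[k] A')
    (bm : GlueDatum.BaseChangeMaps (tensorMapLeft k ψ B₀) (tensorMapLeft k ψ B₁)
      (tensorMapLeft k ψ B₀₁) G G') (n : ℕ) {m : ℕ} (q : Fin m → (B₀ →ₐ[k] k))
    (h1 : P1 x n q G) : P1 x n q G' := by
  refine ⟨H970.P0_of_baseChangeMaps hC.mul_eq_one ψ bm n h1.1, ?_⟩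
  let T : Submodule A' G'.N₀ :=
    { carrier := {a' | ∃ s ∈ sec x n G', a' - s.1 ∈ vanq q G'}
      add_mem' := by
        rintro a a' ⟨s, hs, h⟩ ⟨s', hs', h'⟩
        refine ⟨s + s', Submodule.add_mem _ hs hs', ?_⟩
        have : a + a' - (s + s').1 = (a - s.1) + (a' - s'.1) := by
          rw [Prod.fst_add]; abel
        rw [this]
        exact Submodule.add_mem _ h h'
      zero_mem' := ⟨0, Submodule.zero_mem _, by simp⟩
      smul_mem' := by
        rintro c a ⟨s, hs, h⟩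
        refine ⟨c • s, Submodule.smul_mem _ c hs, ?_⟩
        have : c • a - (c • s).1 = c • (a - s.1) := by
          rw [Prod.smul_fst, smul_sub]
        rw [this]
        exact Submodule.smul_of_tower_mem _ c h }
  intro a'
  refine pbc_induction ψ bm.b₀ bm.isBaseChange₀ T (fun a => ?_) a'
  obtain ⟨s, hs, h⟩ := h1.2 a
  refine ⟨(bm.b₀ s.1, bm.b₁ s.2), map_mem_sec ψ bm x n hs, ?_⟩
  show bm.b₀ a - bm.b₀ s.1 ∈ vanq q G'
  rw [← map_sub]
  exact map_mem_vanq ψ bm q h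

/-- `GenModY` is stable under base change. -/
theorem genModY_of_baseChangeMaps (ψ : A →ₐ[k] A')
    (bm : GlueDatum.BaseChangeMaps (tensorMapLeft k ψ B₀) (tensorMapLeft k ψ B₁)
      (tensorMapLeft k ψ B₀₁) G G') {b : G.N₁} (hb : GenModY y G b) :
    GenModY y G' (bm.b₁ b) := by
  intro c'
  let Y' : Submodule (A' ⊗[k] B₁) G'.N₁ := Ideal.span {yElt k A' y} • ⊤
  let T : Submodule A' G'.N₁ :=
    { carrier := {c' | ∃ r : A' ⊗[k] B₁, c' - r • bm.b₁ b ∈ Y'}
      add_mem' := by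
        rintro c c' ⟨r, h⟩ ⟨r', h'⟩
        refine ⟨r + r', ?_⟩
        have : c + c' - (r + r') • bm.b₁ b = (c - r • bm.b₁ b) + (c' - r' • bm.b₁ b) := by
          rw [add_smul]; abel
        rw [this]
        exact Submodule.add_mem _ h h'
      zero_mem' := ⟨0, by simp⟩
      smul_mem' := by
        rintro a c ⟨r, h⟩
        refine ⟨a • r, ?_⟩
        have : a • c - (a • r) • bm.b₁ b = a • (c - r • bm.b₁ b) := by
          rw [smul_sub, smul_assoc]
        rw [this]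
        exact Submodule.smul_of_tower_mem _ a h }
  refine pbc_induction ψ bm.b₁ bm.isBaseChange₁ T (fun c => ?_) c'
  obtain ⟨r, hr⟩ := hb c
  refine ⟨tensorMapLeft k ψ B₁ r, ?_⟩
  show bm.b₁ c - tensorMapLeft k ψ B₁ r • bm.b₁ b ∈ Y'
  rw [← bm.b₁.map_smulₛₗ, ← map_sub]
  have := pbc_map_mem_smul_top ψ bm.b₁ (Ideal.span {yElt k A y}) hr
  rwa [Ideal.map_span, Set.image_singleton, tensorMapLeft_yElt] at this

/-- Under `P1`, the sections of `G'(nE₀ - Σq)` are spanned over `A'` by the images of the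
sections of `G(nE₀ - Σq)`. -/
theorem mem_span_image_of_mem_secq (hC : IsCurveChart k B₀ B₁ B₀₁ x y e) (ψ : A →ₐ[k] A')
    (bm : GlueDatum.BaseChangeMaps (tensorMapLeft k ψ B₀) (tensorMapLeft k ψ B₁)
      (tensorMapLeft k ψ B₀₁) G G') (n : ℕ) {m : ℕ} (q : Fin m → (B₀ →ₐ[k] k))
    (h1 : P1 x n q G) (t' : G'.N₀ × G'.N₁) (ht' : t' ∈ secq x n q G') :
    t' ∈ Submodule.span A'
      {t'' : G'.N₀ × G'.N₁ | ∃ s ∈ secq x n q G, t'' = (bm.b₀ s.1, bm.b₁ s.2)} := by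
  set S : Submodule A' (G'.N₀ × G'.N₁) := Submodule.span A'
      {t'' : G'.N₀ × G'.N₁ | ∃ s ∈ secq x n q G, t'' = (bm.b₀ s.1, bm.b₁ s.2)} with hS
  let V : Submodule A G.N₀ := (vanq q G).restrictScalars A
  let F : (sec x n G × V) →ₗ[A] G.N₀ :=
    ((LinearMap.fst A G.N₀ G.N₁).comp (sec x n G).subtype).coprod V.subtype
  have hFapp : ∀ z : sec x n G × V, F z = (z.1 : G.N₀ × G.N₁).1 + (z.2 : G.N₀) := fun z => rfl
  have hF : Function.Surjective F := by
    intro a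
    obtain ⟨s, hs, h⟩ := h1.2 a
    refine ⟨(⟨s, hs⟩, ⟨a - s.1, h⟩), ?_⟩
    rw [hFapp]
    show s.1 + (a - s.1) = a
    abel
  let L : (sec x n G × V) →ₛₗ[ψ.toRingHom] ((G'.N₀ × G'.N₁) ⧸ S) :=
    (S.mkQ.comp (sec x n G').subtype).comp
      ((H970.secMap ψ bm x n).comp (LinearMap.fst A (sec x n G) V))
  have hLapp : ∀ z : sec x n G × V,
      L z = S.mkQ (bm.b₀ (z.1 : G.N₀ × G.N₁).1, bm.b₁ (z.1 : G.N₀ × G.N₁).2) := fun z => rfl
  have hker : LinearMap.ker F ≤ LinearMap.ker L := by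
    intro z hz
    rw [LinearMap.mem_ker, hFapp] at hz
    rw [LinearMap.mem_ker, hLapp, Submodule.mkQ_apply, Submodule.Quotient.mk_eq_zero]
    refine Submodule.subset_span ⟨z.1, mem_secq.mpr ⟨z.1.2, ?_⟩, rfl⟩
    have h2 : (z.1 : G.N₀ × G.N₁).1 = -(z.2 : G.N₀) := eq_neg_of_add_eq_zero_left hz
    rw [h2]
    exact Submodule.neg_mem _ z.2.2
  let g₀ : G.N₀ →ₛₗ[ψ.toRingHom] ((G'.N₀ × G'.N₁) ⧸ S) :=
    ((LinearMap.ker F).liftQ L hker).comp (F.quotKerEquivOfSurjective hF).symm.toLinearMap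
  have hg₀ : ∀ z, g₀ (F z) = L z := by
    intro z
    show ((LinearMap.ker F).liftQ L hker) ((F.quotKerEquivOfSurjective hF).symm (F z)) = L z
    rw [LinearMap.quotKerEquivOfSurjective_symm_apply]
    rfl
  obtain ⟨g', hg'⟩ := pbc_exists_lift ψ bm.b₀ bm.isBaseChange₀ g₀
  -- on sections, the quotient map is `g' ∘ fst`
  have key : ∀ t ∈ sec x n G', S.mkQ t = g' t.1 := by
    intro t ht
    have hspan := H970.mem_span_image_of_mem_sec hC ψ bm n h1.1 t ht
    clear ht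
    induction hspan using Submodule.span_induction with
    | mem t h =>
      obtain ⟨s, hs, rfl⟩ := h
      show S.mkQ (bm.b₀ s.1, bm.b₁ s.2) = g' (bm.b₀ s.1)
      rw [hg']
      have h3 := hg₀ (⟨s, hs⟩, 0)
      rw [hFapp, hLapp] at h3
      simp only [Submodule.coe_zero, add_zero] at h3
      exact h3.symm
    | zero => simp
    | add t t' _ _ h h' => rw [map_add, Prod.fst_add, map_add, h, h']
    | smul a' t _ h => rw [map_smul, Prod.smul_fst, map_smul, h]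
  -- `g'` kills `vanq q G'`
  have hvan : ∀ v' ∈ vanq q G', g' v' = 0 := by
    intro v' hv'
    have hspan := mem_span_image_of_mem_vanq ψ bm q hv'
    clear hv'
    induction hspan using Submodule.span_induction with
    | mem v h =>
      obtain ⟨v, hv, rfl⟩ := h
      rw [hg']
      have h3 := hg₀ (0, ⟨v, hv⟩)
      rw [hFapp, hLapp] at h3
      simp only [Submodule.coe_zero, Prod.fst_zero, Prod.snd_zero, zero_add, map_zero] at h3
      rw [h3]
      exact (Submodule.Quotient.mk_eq_zero S).mpr S.zero_mem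
    | zero => simp
    | add t t' _ _ h h' => rw [map_add, h, h', add_zero]
    | smul a' t _ h => rw [map_smul, h, smul_zero]
  obtain ⟨ht1, ht2⟩ := mem_secq.mp ht'
  have h0 : S.mkQ t' = 0 := by rw [key t' ht1, hvan _ ht2]
  exact (Submodule.Quotient.mk_eq_zero S).mp h0

/-- `IsGen` is stable under base change (given `P1`). -/
theorem isGen_of_baseChangeMaps (hC : IsCurveChart k B₀ B₁ B₀₁ x y e) (ψ : A →ₐ[k] A')
    (bm : GlueDatum.BaseChangeMaps (tensorMapLeft k ψ B₀) (tensorMapLeft k ψ B₁)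
      (tensorMapLeft k ψ B₀₁) G G') (n : ℕ) {m : ℕ} (q : Fin m → (B₀ →ₐ[k] k))
    (h1 : P1 x n q G) {s : G.N₀ × G.N₁} (hs : IsGen x y n q G s) :
    IsGen x y n q G' (bm.b₀ s.1, bm.b₁ s.2) where
  mem := mem_secq.mpr ⟨map_mem_sec ψ bm x n (mem_secq.mp hs.mem).1,
    map_mem_vanq ψ bm q (mem_secq.mp hs.mem).2⟩
  span := by
    intro t' ht'
    have h := mem_span_image_of_mem_secq hC ψ bm n q h1 t' ht'
    have h2 : Submodule.span A'
        {t'' : G'.N₀ × G'.N₁ | ∃ s ∈ secq x n q G, t'' = (bm.b₀ s.1, bm.b₁ s.2)} ≤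
        Submodule.span A' {((bm.b₀ s.1, bm.b₁ s.2) : G'.N₀ × G'.N₁)} := by
      rw [Submodule.span_le]
      rintro _ ⟨t, ht, rfl⟩
      obtain ⟨a, rfl⟩ := hs.span t ht
      refine Submodule.mem_span_singleton.mpr ⟨ψ a, ?_⟩
      rw [Prod.smul_fst, Prod.smul_snd, pbc_map_smul_base, pbc_map_smul_base]
      rfl
    obtain ⟨a', ha'⟩ := Submodule.mem_span_singleton.mp (h2 h)
    exact ⟨a', ha'.symm⟩
  gen := genModY_of_baseChangeMaps ψ bm hs.gen

/-- `P2` is stable under base change. -/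
theorem p2_of_baseChangeMaps (hC : IsCurveChart k B₀ B₁ B₀₁ x y e) (ψ : A →ₐ[k] A')
    (bm : GlueDatum.BaseChangeMaps (tensorMapLeft k ψ B₀) (tensorMapLeft k ψ B₁)
      (tensorMapLeft k ψ B₀₁) G G') (n : ℕ) {m : ℕ} (q : Fin m → (B₀ →ₐ[k] k))
    (h2 : P2 x y n q G) : P2 x y n q G' := by
  obtain ⟨h1, s, hs⟩ := h2
  exact ⟨p1_of_baseChangeMaps hC ψ bm n q h1, _, isGen_of_baseChangeMaps hC ψ bm n q h1 hs⟩

end

section Main

variable {k : Type u} [Field k] [IsAlgClosed k]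
  {B₀ B₁ B₀₁ : Type u} [CommRing B₀] [CommRing B₁] [CommRing B₀₁]
  [Algebra k B₀] [Algebra k B₁] [Algebra k B₀₁] [Algebra B₀ B₀₁] [Algebra B₁ B₀₁]
  [IsScalarTower k B₀ B₀₁] [IsScalarTower k B₁ B₀₁]
  {x : B₀} {y : B₁} {e : B₁ →ₐ[k] k}

section Points

variable {A A' : Type u} [CommRing A] [Algebra k A] [CommRing A'] [Algebra k A']

/-- PT-BC: the point conditions are compatible with base change, with Hilbert coordinates
`ψ ∘ φ₀`.  (Skeleton statement of helper11, verbatim.) -/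
theorem pointCond_bc (hC : IsCurveChart k B₀ B₁ B₀₁ x y e) (i : ChartIndex k B₀)
    (hnum : i.Numeric B₀₁ y) {G : CurveGD k B₀ B₁ B₀₁ A} {G' : CurveGD k B₀ B₁ B₀₁ A'}
    (ψ : A →ₐ[k] A') (hbc : CurveGD.IsBC ψ G G') (hrig : G.Rigidifiable e) (hdeg : G.Deg0)
    {φ₀ : H491.Rβ k i.β →ₐ[k] A} (h : PointCond x y i G φ₀) :
    PointCond x y i G' (ψ.comp φ₀) := by
  obtain ⟨bm⟩ := hbc
  obtain ⟨s, hs, hspan⟩ := h.sect
  refine ⟨p1_of_baseChangeMaps hC ψ bm i.n i.q h.p1,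
    ⟨(bm.b₀ s.1, bm.b₁ s.2), isGen_of_baseChangeMaps hC ψ bm i.n i.q h.p1 hs, ?_⟩, ?_⟩
  · have h1 := pbc_span_singleton ψ bm.b₀ bm.isBaseChange₀ _ s.1 hspan
    rw [h1, Ideal.map_mul, ptIdeal_map_tensorMapLeft]
    congr 2
    show Ideal.map (tensorMapLeft k ψ B₀)
        (Ideal.map (H491.bc B₀ φ₀).toRingHom (H491.univIdeal (k := k) i.β)) =
      Ideal.map (H491.bc B₀ (ψ.comp φ₀)).toRingHom (H491.univIdeal (k := k) i.β)
    rw [Ideal.map_map]
    refine congrArg (fun f : H491.Rβ k i.β ⊗[k] B₀ →+* A' ⊗[k] B₀ => Ideal.map f _) ?_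
    apply RingHom.ext
    intro z
    induction z using TensorProduct.induction_on with
    | zero => simp
    | tmul a b => simp [tensorMapLeft, H491.bc]
    | add z z' hz hz' => rw [map_add, map_add, hz, hz']
  · exact h.unit.map ψ

end Points

/-- **PT-BC** as the frozen leaf `H11.Leaf.PointBC`. -/
theorem pointBC : H11.Leaf.PointBC k B₀ B₁ B₀₁ :=
  fun _ _ _ hC i hnum _ _ _ _ _ _ _ _ ψ hbc hrig hdeg _ h =>
    pointCond_bc hC i hnum ψ hbc hrig hdeg h

end Main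

end Fermat.Agent.S25.H205
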