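import Fermat.Agent.S25.H491.ACStage4
import Fermat.Agent.S25.H205.ACPointBC

/-!
# Row S25, block ALGCHARTS: leaf ST4 (helper205)

`stage4 : H11.Leaf.Stage4 k B₀ B₁ B₀₁` and the skeleton statement `stage4_locus`, obtained by
plugging `H205.pointBC` (PT-BC) into helper491's reduction `H491.stage4_of_pointBC`
(which uses helper71's PT-UNIQ).
-/

set_option autoImplicit false

universe u

open scoped TensorProduct

namespace Fermat.Agent.S25.H205

open Fermat.Agent.S25 Fermat.Agent.S25.H11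

variable {k : Type u} [Field k] [IsAlgClosed k]
  {B₀ B₁ B₀₁ : Type u} [CommRing B₀] [CommRing B₁] [CommRing B₀₁]
  [Algebra k B₀] [Algebra k B₁] [Algebra k B₀₁] [Algebra B₀ B₀₁] [Algebra B₁ B₀₁]
  [IsScalarTower k B₀ B₀₁] [IsScalarTower k B₁ B₀₁]
  {x : B₀} {y : B₁} {e : B₁ →ₐ[k] k}

/-- **ST4** as the frozen leaf `H11.Leaf.Stage4`. -/
theorem stage4 : H11.Leaf.Stage4 k B₀ B₁ B₀₁ :=
  H491.stage4_of_pointBC pointBC

section Stages

variable {A : Type u} [CommRing A] [Algebra k A]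

/-- STAGE 4: given `P3`, the locus where `f` is invertible.  (Skeleton statement of helper11,
verbatim.) -/
theorem stage4_locus (hC : IsCurveChart k B₀ B₁ B₀₁ x y e) (i : ChartIndex k B₀)
    (hnum : i.Numeric B₀₁ y) (G : CurveGD k B₀ B₁ B₀₁ A) (hrig : G.Rigidifiable e)
    (hdeg : G.Deg0) (h3 : P3 x y i.n i.q i.β G) :
    ∃ J : Ideal A, ∀ (A' : Type u) [CommRing A'] [Algebra k A'] (ψ : A →ₐ[k] A')
      (G' : CurveGD k B₀ B₁ B₀₁ A'), CurveGD.IsBC ψ G G' →
        (P4 x y i G' ↔ J.map ψ.toRingHom = ⊤) :=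
  stage4 x y e hC i hnum A G hrig hdeg h3

end Stages

end Fermat.Agent.S25.H205
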