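import Fermat.Agent.S25.DefsDict
import Fermat.Agent.S25.H205.BridgeDef
import Fermat.Agent.S25.H205.GDCBasic

/-!
# Row S25, bridge AS9: `Stmt.Charts` from the dictionary and `Stmt.AlgCharts` (formal)

`charts_of_alg : ChartOf → DictSections → DictGlue → DictIso → DictBC → DictDeg → AlgBCExists →
  AlgCharts → Stmt.Charts c ε`.
The only GDC facts used are `glueDatum_isIso_refl` and `isBC_of_isIso_right`, both proved in
`H205/BridgeDef.lean`, `H205/GDCBasic.lean`.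
-/

set_option autoImplicit false

universe u

open CategoryTheory CategoryTheory.Limits AlgebraicGeometry AlgebraicGeometry.RelPicard
  NeronModelInfra GoodReductionJacobian
open scoped TensorProduct

namespace Fermat.Agent.S25.H205

variable {k : Type u} [Field k] {C : Scheme.{u}} {c : C ⟶ Spec (CommRingCat.of k)}
  {ε : SchemeHomOver (𝟙 (Spec (CommRingCat.of k))) c}

/-- The chart family of line bundles attached to an algebraic chart family. -/
noncomputable def chartFamilyOfAlg (Ch : ChartOf c ε) (hSec : Stmt.DictSections Ch)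
    (hGlue : Stmt.DictGlue Ch) (hIso : Stmt.DictIso Ch) (hBC : Stmt.DictBC Ch)
    (hDeg : Stmt.DictDeg Ch) (hEx : Stmt.AlgBCExists Ch)
    (F : AlgChartFamily k Ch.B₀ Ch.B₁ Ch.B₀₁ Ch.e) : ChartFamily c ε where
  ι := F.ι
  R := F.R
  finiteType := F.finiteType
  bundle i := (hGlue (F.R i) (F.datum i) (F.rig i)).choose
  deg0 i := (hDeg (F.R i) _ (F.datum i) (hGlue (F.R i) (F.datum i) (F.rig i)).choose_spec).2
    (F.deg0 i)
  inj i A _ _ φ ψ h := by
    have hcorr := (hGlue (F.R i) (F.datum i) (F.rig i)).choose_spec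
    obtain ⟨Gφ, hGφ⟩ := hEx (F.R i) A φ (F.datum i)
    obtain ⟨Gψ, hGψ⟩ := hEx (F.R i) A ψ (F.datum i)
    have h1 := hBC (F.R i) A φ _ (F.datum i) Gφ hcorr hGφ
    have h2 := hBC (F.R i) A ψ _ (F.datum i) Gψ hcorr hGψ
    exact F.inj i A φ ψ Gφ Gψ hGφ hGψ ((hIso A _ _ Gφ Gψ h1 h2).1 h)
  locus A _ _ M hM := by
    obtain ⟨G, hG, hrig⟩ := hSec A M
    obtain ⟨I, hI, hloc⟩ := F.locus A G hrig ((hDeg A M G hG).1 hM)
    refine ⟨I, hI, fun i A' _ _ ψ => ?_⟩
    have hcorr := (hGlue (F.R i) (F.datum i) (F.rig i)).choose_spec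
    obtain ⟨G', hG'⟩ := hEx A A' ψ G
    have hM' := hBC A A' ψ M G G' hG hG'
    rw [← hloc i A' ψ G' hG']
    constructor
    · rintro ⟨φ, hφ⟩
      obtain ⟨G'', hG''⟩ := hEx (F.R i) A' φ (F.datum i)
      have h1 := hBC (F.R i) A' φ _ (F.datum i) G'' hcorr hG''
      have h2 : G''.IsIso G' := (hIso A' _ _ G'' G' h1 hM').1 hφ
      exact ⟨φ, isBC_of_isIso_right hG'' h2⟩
    · rintro ⟨φ, hφ⟩
      have h1 := hBC (F.R i) A' φ _ (F.datum i) G' hcorr hφ
      exact ⟨φ, (hIso A' _ _ G' G' h1 hM').2 (glueDatum_isIso_refl G')⟩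

/-- **AS9**: `Charts` follows formally from the dictionary and `AlgCharts`. -/
theorem charts_of_alg (Ch : ChartOf c ε) (hSec : Stmt.DictSections Ch)
    (hGlue : Stmt.DictGlue Ch) (hIso : Stmt.DictIso Ch) (hBC : Stmt.DictBC Ch)
    (hDeg : Stmt.DictDeg Ch) (hEx : Stmt.AlgBCExists Ch)
    (hCharts : Stmt.AlgCharts k Ch.B₀ Ch.B₁ Ch.B₀₁) : Stmt.Charts c ε := by
  obtain ⟨F⟩ := hCharts Ch.x Ch.y Ch.e Ch.isCurveChart
  exact ⟨chartFamilyOfAlg Ch hSec hGlue hIso hBC hDeg hEx F⟩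

end Fermat.Agent.S25.H205
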