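import Fermat.Agent.S25.DefsDict
import Fermat.Agent.S25.H205.Box

/-!
# S25 / DICT / BR3: the ring of functions on a product chart of `C_A = pullback c (specStr k A)`

For an affine open `U ⊆ C` with `i : Γ(C, U) ≃+* B` (compatible with the `k`-structures) and a
`k`-algebra `A`:

* `isPushout_preimageOpen`: `Γ(C_A, preimageOpen A U)` is the pushout of `A ← k → Γ(C, U)` along
  `baseToSections`, `curveToSections`;
* `chartRingEquiv : A ⊗[k] B ≃+* Γ(C_A, preimageOpen A U)` with
  `chartRingEquiv (a ⊗ₜ b) = baseToSections a * curveToSections (i.symm b)`.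
-/

set_option autoImplicit false

universe u

open CategoryTheory CategoryTheory.Limits AlgebraicGeometry AlgebraicGeometry.RelPicard
  NeronModelInfra GoodReductionJacobian
open scoped TensorProduct

namespace Fermat.Agent.S25.H205

section

variable {k : Type u} [Field k] {C : Scheme.{u}} (c : C ⟶ Spec (CommRingCat.of k))
  (A : Type u) [CommRing A] [Algebra k A]

lemma isAffineOpen_preimageOpen {U : C.Opens} (hU : IsAffineOpen U) :
    IsAffineOpen (preimageOpen (c := c) A U) :=
  isAffineOpen_fst_preimage c (specStr k A) hU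

/-- The ring of functions on the preimage in `C_A` of an affine open `U ⊆ C` is the pushout
`A ⊗[k] Γ(C, U)`. -/
theorem isPushout_preimageOpen {U : C.Opens} (hU : IsAffineOpen U) :
    IsPushout (CommRingCat.ofHom (algebraMap k A)) (CommRingCat.ofHom (sectionsStr c U))
      (CommRingCat.ofHom (baseToSections (c := c) A (preimageOpen (c := c) A U)))
      (CommRingCat.ofHom (curveToSections (c := c) A U)) := by
  have H : IsPullback (pullback.fst c (specStr k A)) (pullback.snd c (specStr k A)) c
      (specStr k A) := IsPullback.of_hasPullback c (specStr k A)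
  have hUST : (⊤ : (Spec (CommRingCat.of A)).Opens) ≤
      (specStr k A) ⁻¹ᵁ (⊤ : (Spec (CommRingCat.of k)).Opens) := le_rfl
  have hUSX : U ≤ c ⁻¹ᵁ (⊤ : (Spec (CommRingCat.of k)).Opens) := le_top
  have hUY : preimageOpen (c := c) A U = (pullback.fst c (specStr k A)) ⁻¹ᵁ U ⊓
      (pullback.snd c (specStr k A)) ⁻¹ᵁ ⊤ := by simp
  have h1 := (isIso_pushoutSection_iff H hUST hUSX hUY).mp
    (isIso_pushoutSection_of_isAffineOpen H hUST hUSX hUY (isAffineOpen_top _)
      (isAffineOpen_top _) hU)
  refine (h1.of_iso (Scheme.ΓSpecIso (CommRingCat.of k)) (Iso.refl _)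
    (Scheme.ΓSpecIso (CommRingCat.of A)) (Iso.refl _) ?_ ?_ ?_ ?_).flip
  · -- c.appLE ⊤ U ≫ 𝟙 = ΓSpecIso.hom ≫ sectionsStr
    simp only [Iso.refl_hom, Category.comp_id, sectionsStr, CommRingCat.ofHom_hom,
      Iso.hom_inv_id_assoc]
    rfl
  · -- t.appTop ≫ ΓSpecIso(A).hom = ΓSpecIso(k).hom ≫ algebraMap
    exact Scheme.ΓSpecIso_naturality (CommRingCat.ofHom (algebraMap k A))
  · -- fst.appLE ≫ 𝟙 = 𝟙 ≫ curveToSections
    simp only [Iso.refl_hom, Category.comp_id, Category.id_comp, curveToSections,
      CommRingCat.ofHom_hom]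
    exact Scheme.Hom.appLE_eq_app _
  · simp only [Iso.refl_hom, Category.comp_id, baseToSections, CommRingCat.ofHom_hom,
      Iso.hom_inv_id_assoc]
    rfl

section Equiv

variable {B : Type u} [CommRing B] [Algebra k B] {U : C.Opens} (hU : IsAffineOpen U)
  (i : Γ(C, U) ≃+* B) (hi : ∀ a : k, i (sectionsStr c U a) = algebraMap k B a)

include hU hi in
/-- The pushout square with `Γ(C, U)` replaced by the model ring `B`. -/
theorem isPushout_preimageOpen_model :
    IsPushout (CommRingCat.ofHom (algebraMap k A)) (CommRingCat.ofHom (algebraMap k B))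
      (CommRingCat.ofHom (baseToSections (c := c) A (preimageOpen (c := c) A U)))
      (CommRingCat.ofHom ((curveToSections (c := c) A U).comp i.symm.toRingHom)) := by
  refine (isPushout_preimageOpen c A hU).of_iso (Iso.refl _) (Iso.refl _)
    i.toCommRingCatIso (Iso.refl _) ?_ ?_ ?_ ?_
  · simp
  · ext a
    simpa using hi a
  · simp
  · ext f
    simp

/-- **BR3**: the ring of functions on the product chart, `A ⊗[k] B ≃+* Γ(C_A, preimage of U)`. -/
noncomputable def chartRingEquiv : A ⊗[k] B ≃+* Γ(pullback c (specStr k A), preimageOpen (c := c) A U) :=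
  ((CommRingCat.isPushout_tensorProduct k A B).isoIsPushout _ _
    (isPushout_preimageOpen_model c A hU i hi)).commRingCatIsoToRingEquiv

@[simp]
lemma chartRingEquiv_tmul_one (a : A) :
    chartRingEquiv c A hU i hi (a ⊗ₜ[k] 1) =
      baseToSections (c := c) A (preimageOpen (c := c) A U) a := by
  have := (CommRingCat.isPushout_tensorProduct k A B).inl_isoIsPushout_hom _ _
    (isPushout_preimageOpen_model c A hU i hi)
  exact congr($this a)

@[simp]
lemma chartRingEquiv_one_tmul (b : B) :
    chartRingEquiv c A hU i hi ((1 : A) ⊗ₜ[k] b) =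
      curveToSections (c := c) A U (i.symm b) := by
  have := (CommRingCat.isPushout_tensorProduct k A B).inr_isoIsPushout_hom _ _
    (isPushout_preimageOpen_model c A hU i hi)
  exact congr($this b)

lemma chartRingEquiv_tmul (a : A) (b : B) :
    chartRingEquiv c A hU i hi (a ⊗ₜ[k] b) =
      baseToSections (c := c) A (preimageOpen (c := c) A U) a *
        curveToSections (c := c) A U (i.symm b) := by
  have : a ⊗ₜ[k] b = (a ⊗ₜ[k] (1 : B)) * ((1 : A) ⊗ₜ[k] b) := by
    rw [Algebra.TensorProduct.tmul_mul_tmul, mul_one, one_mul]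
  rw [this, map_mul, chartRingEquiv_tmul_one, chartRingEquiv_one_tmul]

lemma chartRingEquiv_symm_baseToSections (a : A) :
    (chartRingEquiv c A hU i hi).symm
      (baseToSections (c := c) A (preimageOpen (c := c) A U) a) = a ⊗ₜ[k] 1 := by
  rw [RingEquiv.symm_apply_eq, chartRingEquiv_tmul_one]

lemma chartRingEquiv_symm_curveToSections (f : Γ(C, U)) :
    (chartRingEquiv c A hU i hi).symm (curveToSections (c := c) A U f) = 1 ⊗ₜ[k] i f := by
  rw [RingEquiv.symm_apply_eq, chartRingEquiv_one_tmul, RingEquiv.symm_apply_apply]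

/-- Two ring homomorphisms out of `A ⊗[k] B` agreeing on `a ⊗ 1` and `1 ⊗ b` are equal. -/
lemma tensor_ringHom_ext {S : Type*} [Semiring S] {f g : A ⊗[k] B →+* S}
    (h1 : ∀ a : A, f (a ⊗ₜ[k] 1) = g (a ⊗ₜ[k] 1))
    (h2 : ∀ b : B, f ((1 : A) ⊗ₜ[k] b) = g ((1 : A) ⊗ₜ[k] b)) : f = g := by
  refine RingHom.ext fun z => ?_
  induction z with
  | zero => simp
  | add x y hx hy => rw [map_add, map_add, hx, hy]
  | tmul a b =>
    have : a ⊗ₜ[k] b = (a ⊗ₜ[k] (1 : B)) * ((1 : A) ⊗ₜ[k] b) := by
      rw [Algebra.TensorProduct.tmul_mul_tmul, mul_one, one_mul]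
    rw [this, map_mul, map_mul, h1, h2]

end Equiv

section Restriction

variable {B B' : Type u} [CommRing B] [Algebra k B] [CommRing B'] [Algebra k B'] [Algebra B B']
  [IsScalarTower k B B'] {U U' : C.Opens} (hU : IsAffineOpen U) (hU' : IsAffineOpen U')
  (h : U' ≤ U)
  (i : Γ(C, U) ≃+* B) (hi : ∀ a : k, i (sectionsStr c U a) = algebraMap k B a)
  (i' : Γ(C, U') ≃+* B') (hi' : ∀ a : k, i' (sectionsStr c U' a) = algebraMap k B' a)
  (hii' : ∀ f : Γ(C, U), i' (resRing h f) = algebraMap B B' (i f))

include h in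
lemma preimageOpen_mono : preimageOpen (c := c) A U' ≤ preimageOpen (c := c) A U :=
  Scheme.Hom.preimage_mono _ h

omit [Algebra k A] in
lemma resRing_resRing {X : Scheme.{u}} {V₁ V₂ V₃ : X.Opens} (h₁₂ : V₂ ≤ V₁) (h₂₃ : V₃ ≤ V₂)
    (f : Γ(X, V₁)) : resRing h₂₃ (resRing h₁₂ f) = resRing (h₂₃.trans h₁₂) f := by
  simp only [resRing]
  rw [← CommRingCat.comp_apply, ← Functor.map_comp]
  rfl

lemma resRing_baseToSections {V V' : (pullback c (specStr k A)).Opens} (hV : V' ≤ V) (a : A) :
    resRing hV (baseToSections (c := c) A V a) = baseToSections (c := c) A V' a := by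
  simp only [resRing, baseToSections, CommRingCat.hom_comp, RingHom.coe_comp,
    Function.comp_apply]
  rw [← CommRingCat.comp_apply, ← Functor.map_comp]
  rfl

lemma resRing_curveToSections (f : Γ(C, U)) :
    resRing (preimageOpen_mono c A h) (curveToSections (c := c) A U f) =
      curveToSections (c := c) A U' (resRing h f) := by
  simp only [resRing, curveToSections]
  exact congr($((pullback.fst c (specStr k A)).naturality (homOfLE h).op) f).symm

include hii' in
/-- `chartRingEquiv` is compatible with restriction to a smaller affine open of `C`. -/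
theorem resRing_chartRingEquiv (z : A ⊗[k] B) :
    resRing (preimageOpen_mono c A h) (chartRingEquiv c A hU i hi z) =
      chartRingEquiv c A hU' i' hi' (tensorMapRight k A B B' z) := by
  have key : (resRing (preimageOpen_mono c A h)).comp (chartRingEquiv c A hU i hi).toRingHom =
      (chartRingEquiv c A hU' i' hi').toRingHom.comp (tensorMapRight k A B B').toRingHom := by
    apply tensor_ringHom_ext
    · intro a
      have e1 : (tensorMapRight k A B B') (a ⊗ₜ[k] (1 : B)) = a ⊗ₜ[k] (1 : B') := by
        simp [tensorMapRight]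
      change resRing _ (chartRingEquiv c A hU i hi (a ⊗ₜ[k] 1)) =
        chartRingEquiv c A hU' i' hi' (tensorMapRight k A B B' (a ⊗ₜ[k] 1))
      rw [e1, chartRingEquiv_tmul_one, chartRingEquiv_tmul_one, resRing_baseToSections]
    · intro b
      have e1 : (tensorMapRight k A B B') ((1 : A) ⊗ₜ[k] b) =
          (1 : A) ⊗ₜ[k] algebraMap B B' b := by
        simp [tensorMapRight]
      change resRing _ (chartRingEquiv c A hU i hi (1 ⊗ₜ[k] b)) =
        chartRingEquiv c A hU' i' hi' (tensorMapRight k A B B' (1 ⊗ₜ[k] b))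
      rw [e1, chartRingEquiv_one_tmul, chartRingEquiv_one_tmul,
        resRing_curveToSections c A h]
      congr 1
      apply i'.injective
      rw [hii', RingEquiv.apply_symm_apply, RingEquiv.apply_symm_apply]
  exact congr($key z)

end Restriction

section BaseChange

variable {A} {A' : Type u} [CommRing A'] [Algebra k A'] (φ : A →ₐ[k] A')

lemma preimageOpen_le_baseChangeSnd_preimage (U : C.Opens) :
    preimageOpen (c := c) A' U ≤
      (baseChangeSnd c (specHomOver k φ)) ⁻¹ᵁ (preimageOpen (c := c) A U) := by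
  rw [preimageOpen, preimageOpen, ← Scheme.Hom.comp_preimage, baseChangeSnd_fst]

/-- Pullback of functions along `C_{A'} ⟶ C_A`, over the preimage of `U ⊆ C`. -/
noncomputable def bcRing (U : C.Opens) :
    Γ(pullback c (specStr k A), preimageOpen (c := c) A U) →+*
      Γ(pullback c (specStr k A'), preimageOpen (c := c) A' U) :=
  ((baseChangeSnd c (specHomOver k φ)).appLE _ _
    (preimageOpen_le_baseChangeSnd_preimage c φ U)).hom

lemma baseToSections_eq (V : (pullback c (specStr k A)).Opens) :
    CommRingCat.ofHom (baseToSections (c := c) A V) =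
      (Scheme.ΓSpecIso (CommRingCat.of A)).inv ≫
        (pullback.snd c (specStr k A)).appLE ⊤ V
          (show V ≤ (pullback.snd c (specStr k A)) ⁻¹ᵁ ⊤ from le_top) := rfl

lemma bcRing_comp_baseToSections (U : C.Opens) :
    (bcRing c φ U).comp (baseToSections (c := c) A (preimageOpen (c := c) A U)) =
      (baseToSections (c := c) A' (preimageOpen (c := c) A' U)).comp φ.toRingHom := by
  have h1 : CommRingCat.ofHom (baseToSections (c := c) A (preimageOpen (c := c) A U)) ≫
      CommRingCat.ofHom (bcRing c φ U) =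
      CommRingCat.ofHom φ.toRingHom ≫
        CommRingCat.ofHom (baseToSections (c := c) A' (preimageOpen (c := c) A' U)) := by
    rw [baseToSections_eq, baseToSections_eq, Category.assoc]
    simp only [bcRing, CommRingCat.ofHom_hom]
    rw [Scheme.Hom.appLE_comp_appLE,
      appLE_congr_hom (baseChangeSnd_snd c (specHomOver k φ)),
      ← Scheme.Hom.appLE_comp_appLE _ _ ⊤ ⊤ _ (show (⊤ : (Spec (CommRingCat.of A')).Opens) ≤
        (specHomOver k φ).1 ⁻¹ᵁ ⊤ from le_top)
        (show preimageOpen (c := c) A' U ≤ (pullback.snd c (specStr k A')) ⁻¹ᵁ ⊤ from le_top),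
      ← Category.assoc, ← Category.assoc]
    congr 1
    exact (Scheme.ΓSpecIso_inv_naturality (CommRingCat.ofHom φ.toRingHom)).symm
  exact congr(($h1).hom)

lemma bcRing_baseToSections (U : C.Opens) (a : A) :
    bcRing c φ U (baseToSections (c := c) A (preimageOpen (c := c) A U) a) =
      baseToSections (c := c) A' (preimageOpen (c := c) A' U) (φ a) :=
  congr($(bcRing_comp_baseToSections c φ U) a)

lemma bcRing_curveToSections (U : C.Opens) (f : Γ(C, U)) :
    bcRing c φ U (curveToSections (c := c) A U f) = curveToSections (c := c) A' U f := by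
  have h1 : (pullback.fst c (specStr k A)).app U ≫
      (baseChangeSnd c (specHomOver k φ)).appLE _ _
        (preimageOpen_le_baseChangeSnd_preimage c φ U) =
      (pullback.fst c (specStr k A')).app U := by
    rw [Scheme.Hom.app_eq_appLE, Scheme.Hom.appLE_comp_appLE,
      appLE_congr_hom (baseChangeSnd_fst c (specHomOver k φ)), Scheme.Hom.app_eq_appLE]
  exact congr($h1 f)

variable {B : Type u} [CommRing B] [Algebra k B] {U : C.Opens} (hU : IsAffineOpen U)
  (i : Γ(C, U) ≃+* B) (hi : ∀ a : k, i (sectionsStr c U a) = algebraMap k B a)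

/-- **BR3, base change**: pulling back functions along `C_{A'} ⟶ C_A` is `φ ⊗ id` on the
product charts. -/
theorem bcRing_chartRingEquiv (z : A ⊗[k] B) :
    bcRing c φ U (chartRingEquiv c A hU i hi z) =
      chartRingEquiv c A' hU i hi (tensorMapLeft k φ B z) := by
  have key : (bcRing c φ U).comp (chartRingEquiv c A hU i hi).toRingHom =
      (chartRingEquiv c A' hU i hi).toRingHom.comp (tensorMapLeft k φ B) := by
    apply tensor_ringHom_ext
    · intro a
      have e1 : (tensorMapLeft k φ B) (a ⊗ₜ[k] (1 : B)) = φ a ⊗ₜ[k] (1 : B) := by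
        simp [tensorMapLeft]
      change bcRing c φ U (chartRingEquiv c A hU i hi (a ⊗ₜ[k] 1)) =
        chartRingEquiv c A' hU i hi (tensorMapLeft k φ B (a ⊗ₜ[k] 1))
      rw [e1, chartRingEquiv_tmul_one, chartRingEquiv_tmul_one, bcRing_baseToSections]
    · intro b
      have e1 : (tensorMapLeft k φ B) ((1 : A) ⊗ₜ[k] b) = (1 : A') ⊗ₜ[k] b := by
        simp [tensorMapLeft]
      change bcRing c φ U (chartRingEquiv c A hU i hi (1 ⊗ₜ[k] b)) =
        chartRingEquiv c A' hU i hi (tensorMapLeft k φ B (1 ⊗ₜ[k] b))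
      rw [e1, chartRingEquiv_one_tmul, chartRingEquiv_one_tmul, bcRing_curveToSections]
  exact congr($key z)

end BaseChange

section Rig

variable (ε : SchemeHomOver (𝟙 (Spec (CommRingCat.of k))) c) {U : C.Opens}
  (hε : ε.1 ⁻¹ᵁ U = ⊤)

include hε in
lemma top_le_rigSection_preimage :
    (⊤ : (Spec (CommRingCat.of A)).Opens) ≤
      (rigSection c (specStr k A) ε) ⁻¹ᵁ (preimageOpen (c := c) A U) := by
  rw [preimageOpen, ← Scheme.Hom.comp_preimage, rigSection_fst, Scheme.Hom.comp_preimage, hε]
  exact le_rfl

/-- Restriction of functions to the rigidifying section `Spec A ⟶ C_A`, on the preimage of an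
open `U ⊆ C` containing the marked point: a ring map `Γ(C_A, preimage of U) → A`. -/
noncomputable def rigRing :
    Γ(pullback c (specStr k A), preimageOpen (c := c) A U) →+* A :=
  ((rigSection c (specStr k A) ε).appLE (preimageOpen (c := c) A U) ⊤
    (top_le_rigSection_preimage c A ε hε) ≫ (Scheme.ΓSpecIso (CommRingCat.of A)).hom).hom

lemma rigRing_baseToSections (a : A) :
    rigRing c A ε hε (baseToSections (c := c) A (preimageOpen (c := c) A U) a) = a := by
  have h1 : CommRingCat.ofHom (baseToSections (c := c) A (preimageOpen (c := c) A U)) ≫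
      CommRingCat.ofHom (rigRing c A ε hε) = 𝟙 _ := by
    rw [baseToSections_eq]
    simp only [rigRing, CommRingCat.ofHom_hom, Category.assoc]
    rw [← Category.assoc ((pullback.snd c (specStr k A)).appLE _ _ _),
      Scheme.Hom.appLE_comp_appLE, appLE_congr_hom (rigSection_snd c (specStr k A) ε)]
    have : Scheme.Hom.appLE (𝟙 (Spec (CommRingCat.of A))) ⊤ ⊤ le_top = 𝟙 _ := by
      simp [Scheme.Hom.appLE]
    erw [this]
    simp
  exact congr($h1 a)

lemma rigRing_curveToSections (f : Γ(C, U)) :
    rigRing c A ε hε (curveToSections (c := c) A U f) =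
      algebraMap k A (evalAt c ε U hε f) := by
  have h1 : (pullback.fst c (specStr k A)).app U ≫ CommRingCat.ofHom (rigRing c A ε hε) =
      CommRingCat.ofHom (evalAt c ε U hε) ≫ CommRingCat.ofHom (algebraMap k A) := by
    simp only [rigRing, evalAt, CommRingCat.ofHom_hom, Category.assoc]
    rw [Scheme.Hom.app_eq_appLE, ← Category.assoc, Scheme.Hom.appLE_comp_appLE,
      appLE_congr_hom (rigSection_fst c (specStr k A) ε),
      ← Scheme.Hom.appLE_comp_appLE _ _ U ⊤ ⊤ (le_of_eq hε.symm)
        (show (⊤ : (Spec (CommRingCat.of A)).Opens) ≤ (specStr k A) ⁻¹ᵁ ⊤ from le_top),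
      Category.assoc]
    congr 1
    exact Scheme.ΓSpecIso_naturality (CommRingCat.ofHom (algebraMap k A))
  exact congr($h1 f)

variable {B : Type u} [CommRing B] [Algebra k B] (hU : IsAffineOpen U)
  (i : Γ(C, U) ≃+* B) (hi : ∀ a : k, i (sectionsStr c U a) = algebraMap k B a)
  (e : B →ₐ[k] k) (he : ∀ f : Γ(C, U), e (i f) = evalAt c ε U hε f)

include he in
/-- **BR3, rigidification**: restricting functions to the rigidifying section is `epsHom` on the
product chart containing the marked point. -/
theorem rigRing_chartRingEquiv (z : A ⊗[k] B) :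
    rigRing c A ε hε (chartRingEquiv c A hU i hi z) = epsHom e A z := by
  have key : (rigRing c A ε hε).comp (chartRingEquiv c A hU i hi).toRingHom =
      (epsHom e A).toRingHom := by
    apply tensor_ringHom_ext
    · intro a
      change rigRing c A ε hε (chartRingEquiv c A hU i hi (a ⊗ₜ[k] 1)) = epsHom e A (a ⊗ₜ[k] 1)
      rw [chartRingEquiv_tmul_one, rigRing_baseToSections]
      simp [epsHom]
    · intro b
      change rigRing c A ε hε (chartRingEquiv c A hU i hi (1 ⊗ₜ[k] b)) = epsHom e A (1 ⊗ₜ[k] b)
      rw [chartRingEquiv_one_tmul, rigRing_curveToSections, ← he, RingEquiv.apply_symm_apply]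
      simp [epsHom, Algebra.ofId_apply]
  exact congr($key z)

end Rig

end

end Fermat.Agent.S25.H205
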