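import Fermat.Agent.S25.H747.GDHom
import Fermat.Agent.S25.H205.BridgeDef

/-!
# S25 / AB-ALG leaves G1, G2 (skeleton of helper747): isomorphisms of internal Hom data

* `homDatum_self_isIso`  (G1): `ℋom(G, G) ≅ O`.
* `homDatum_isIso_congr` (G2): `ℋom` respects isomorphisms of gluing data.
-/

set_option autoImplicit false

universe u

open scoped TensorProduct

namespace Fermat.Agent.S25.H205

open Fermat.Agent.S25 Fermat.Agent.S25.H747

variable {A R₀ R₁ R₀₁ : Type u} [CommRing A] [CommRing R₀] [CommRing R₁]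
    [CommRing R₀₁] [Algebra A R₀] [Algebra A R₁] [Algebra A R₀₁] [Algebra R₀ R₀₁]
    [Algebra R₁ R₀₁] [IsScalarTower A R₀ R₀₁] [IsScalarTower A R₁ R₀₁]

/-- `r ↦ r • id`, as a linear equivalence `R ≃ End_R(M)` for an invertible module `M`. -/
noncomputable def smulIdEquiv (R M : Type u) [CommRing R] [AddCommGroup M] [Module R M]
    [Module.Invertible R M] : R ≃ₗ[R] (M →ₗ[R] M) :=
  LinearEquiv.ofBijective
    { toFun := fun r => r • LinearMap.id
      map_add' := fun r s => add_smul r s _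
      map_smul' := fun r s => by simp [mul_smul] }
    (by
      have h := Module.Invertible.toModuleEnd_bijective R M
      constructor
      · intro r s hrs
        apply h.1
        ext m
        have := congr($hrs m)
        simpa using this
      · intro f
        obtain ⟨r, hr⟩ := h.2 f
        refine ⟨r, ?_⟩
        ext m
        have := congr($hr m)
        simpa using this)

@[simp] lemma smulIdEquiv_apply (R M : Type u) [CommRing R] [AddCommGroup M] [Module R M]
    [Module.Invertible R M] (r : R) (m : M) : smulIdEquiv R M r m = r • m := rfl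

/-- A base change of an invertible module is invertible. -/
theorem invertible_of_isBaseChange {R S M N : Type u} [CommRing R] [CommRing S] [Algebra R S]
    [AddCommGroup M] [Module R M] [AddCommGroup N] [Module R N] [Module S N]
    [IsScalarTower R S N] [Module.Invertible R M] {f : M →ₗ[R] N} (hf : IsBaseChange S f) :
    Module.Invertible S N :=
  Module.Invertible.congr hf.equiv

lemma homDatum_r₀_apply (G G' : GlueDatum A R₀ R₁ R₀₁) (f : G.N₀ →ₗ[R₀] G'.N₀) (m : G.N₀) :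
    (IsBaseChange.linearMapLeftRightHom G.isBaseChange₀ G'.r₀ f) (G.r₀ m) = G'.r₀ (f m) :=
  IsBaseChange.linearMapLeftRightHom_comp_apply G.isBaseChange₀ G'.r₀ f m

lemma homDatum_r₁_apply (G G' : GlueDatum A R₀ R₁ R₀₁) (f : G.N₁ →ₗ[R₁] G'.N₁) (m : G.N₁) :
    (IsBaseChange.linearMapLeftRightHom G.isBaseChange₁ G'.r₁ f) (G.r₁ m) = G'.r₁ (f m) :=
  IsBaseChange.linearMapLeftRightHom_comp_apply G.isBaseChange₁ G'.r₁ f m

/-- **G1.** `ℋom(G, G) ≅ O`. -/
theorem homDatum_self_isIso (G : GlueDatum A R₀ R₁ R₀₁) :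
    (homDatum G G).IsIso (GlueDatum.unit A R₀ R₁ R₀₁) := by
  have i₀ := G.invertible₀
  have i₁ := G.invertible₁
  have i₀₁ : Module.Invertible R₀₁ G.N₀₁ := invertible_of_isBaseChange G.isBaseChange₀
  have key₀ : ∀ r : R₀, smulIdEquiv R₀₁ G.N₀₁ (algebraMap R₀ R₀₁ r) =
      IsBaseChange.linearMapLeftRightHom G.isBaseChange₀ G.r₀ (smulIdEquiv R₀ G.N₀ r) := by
    intro r
    refine G.isBaseChange₀.algHom_ext _ _ fun m => ?_
    rw [homDatum_r₀_apply, smulIdEquiv_apply, smulIdEquiv_apply, map_smul, algebraMap_smul]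
  have key₁ : ∀ r : R₁, smulIdEquiv R₀₁ G.N₀₁ (algebraMap R₁ R₀₁ r) =
      IsBaseChange.linearMapLeftRightHom G.isBaseChange₁ G.r₁ (smulIdEquiv R₁ G.N₁ r) := by
    intro r
    refine G.isBaseChange₁.algHom_ext _ _ fun m => ?_
    rw [homDatum_r₁_apply, smulIdEquiv_apply, smulIdEquiv_apply, map_smul, algebraMap_smul]
  exact glueDatum_isIso_symm ⟨⟨smulIdEquiv R₀ G.N₀, smulIdEquiv R₁ G.N₁,
    smulIdEquiv R₀₁ G.N₀₁, fun r => key₀ r, fun r => key₁ r⟩⟩

/-- **G2.** `ℋom` respects isomorphisms. -/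
theorem homDatum_isIso_congr {G G₁ G' G₁' : GlueDatum A R₀ R₁ R₀₁} (h : G.IsIso G₁)
    (h' : G'.IsIso G₁') : (homDatum G G').IsIso (homDatum G₁ G₁') := by
  obtain ⟨e⟩ := h
  obtain ⟨e'⟩ := h'
  have key₀ : ∀ f : G.N₀ →ₗ[R₀] G'.N₀,
      LinearEquiv.arrowCongr e.e₀₁ e'.e₀₁
        (IsBaseChange.linearMapLeftRightHom G.isBaseChange₀ G'.r₀ f) =
      IsBaseChange.linearMapLeftRightHom G₁.isBaseChange₀ G₁'.r₀
        (LinearEquiv.arrowCongr e.e₀ e'.e₀ f) := by
    intro f
    refine G₁.isBaseChange₀.algHom_ext _ _ fun m => ?_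
    have hm : e.e₀₁.symm (G₁.r₀ m) = G.r₀ (e.e₀.symm m) := by
      apply e.e₀₁.injective
      rw [LinearEquiv.apply_symm_apply, e.comm₀, LinearEquiv.apply_symm_apply]
    rw [homDatum_r₀_apply, LinearEquiv.arrowCongr_apply, hm, homDatum_r₀_apply, e'.comm₀,
      LinearEquiv.arrowCongr_apply]
  have key₁ : ∀ f : G.N₁ →ₗ[R₁] G'.N₁,
      LinearEquiv.arrowCongr e.e₀₁ e'.e₀₁
        (IsBaseChange.linearMapLeftRightHom G.isBaseChange₁ G'.r₁ f) =
      IsBaseChange.linearMapLeftRightHom G₁.isBaseChange₁ G₁'.r₁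
        (LinearEquiv.arrowCongr e.e₁ e'.e₁ f) := by
    intro f
    refine G₁.isBaseChange₁.algHom_ext _ _ fun m => ?_
    have hm : e.e₀₁.symm (G₁.r₁ m) = G.r₁ (e.e₁.symm m) := by
      apply e.e₀₁.injective
      rw [LinearEquiv.apply_symm_apply, e.comm₁, LinearEquiv.apply_symm_apply]
    rw [homDatum_r₁_apply, LinearEquiv.arrowCongr_apply, hm, homDatum_r₁_apply, e'.comm₁,
      LinearEquiv.arrowCongr_apply]
  exact ⟨⟨LinearEquiv.arrowCongr e.e₀ e'.e₀, LinearEquiv.arrowCongr e.e₁ e'.e₁,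
    LinearEquiv.arrowCongr e.e₀₁ e'.e₀₁, fun f => key₀ f, fun f => key₁ f⟩⟩

end Fermat.Agent.S25.H205
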