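import Fermat.Agent.S25.DefsAlg
import Fermat.Agent.S25.H205.BridgeDef
import Fermat.Agent.S25.H971.Lift

/-!
# Row S25, GDC: rigidifiability lifts along square-zero (nilpotent) surjections

`rigLift : RigLift B₀ B₁ B₀₁ e` — the hypothesis `hRig` of the master assembly
`Assembly/Main.lean` and of `H205.def_of_alg`.

Idea: `P := e^* N₁ = A ⊗_{A ⊗ B₁} N₁` is an invertible `A`-module with
`P / I P ≅ e^* (N₁ / I) ≅ A / I`; isomorphisms of finite projective modules lift along
surjections with nil kernel (`H971.exists_linearEquiv_lift`), so `P ≅ A`.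
-/

set_option autoImplicit false

universe u

open scoped TensorProduct

namespace Fermat.Agent.S25.H205

section Core

/-- An invertible module over `R` whose base change to `S = A / (nil ideal)` is trivial has
trivial base change to `A`. -/
theorem nonempty_equiv_of_baseChange_equiv {R A S : Type u} [CommRing R] [CommRing A]
    [CommRing S] [Algebra R A] [Algebra A S] [Algebra R S] [IsScalarTower R A S]
    (hsurj : Function.Surjective (algebraMap A S))
    (hnil : ∀ x ∈ RingHom.ker (algebraMap A S), IsNilpotent x)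
    (N : Type u) [AddCommGroup N] [Module R N] [Module.Invertible R N]
    (φ : S ⊗[R] N ≃ₗ[S] S) : Nonempty (A ⊗[R] N ≃ₗ[A] A) := by
  let φ' : S ⊗[A] (A ⊗[R] N) ≃ₗ[S] S ⊗[A] A :=
    TensorProduct.AlgebraTensorModule.cancelBaseChange R A S S N ≪≫ₗ φ ≪≫ₗ
      (TensorProduct.AlgebraTensorModule.rid A S S).symm
  obtain ⟨ψ, -⟩ := H971.exists_linearEquiv_lift hsurj hnil φ'
  exact ⟨ψ⟩

end Core

section Semilinear

variable {R R' R'' : Type u} [CommRing R] [CommRing R'] [CommRing R'']
  {N N' N'' : Type u} [AddCommGroup N] [Module R N] [AddCommGroup N'] [Module R' N']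
  [AddCommGroup N''] [Module R'' N'']

/-- Composition of semilinear maps along a composite of ring maps. -/
def semilinearComp {ρ : R →+* R'} {ρ' : R' →+* R''} (b' : N' →ₛₗ[ρ'] N'') (b : N →ₛₗ[ρ] N') :
    N →ₛₗ[ρ'.comp ρ] N'' where
  toFun n := b' (b n)
  map_add' m n := by rw [map_add, map_add]
  map_smul' r n := by
    rw [LinearMap.map_smulₛₗ, LinearMap.map_smulₛₗ]
    rfl

@[simp] lemma semilinearComp_apply {ρ : R →+* R'} {ρ' : R' →+* R''} (b' : N' →ₛₗ[ρ'] N'')
    (b : N →ₛₗ[ρ] N') (n : N) : semilinearComp b' b n = b' (b n) := rfl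

/-- Semilinear base-change maps compose. -/
theorem isSemilinearBaseChange_comp {ρ : R →+* R'} {ρ' : R' →+* R''} (b : N →ₛₗ[ρ] N')
    (hb : IsSemilinearBaseChange ρ b) (b' : N' →ₛₗ[ρ'] N'')
    (hb' : IsSemilinearBaseChange ρ' b') :
    IsSemilinearBaseChange (ρ'.comp ρ) (semilinearComp b' b) := by
  unfold IsSemilinearBaseChange at hb hb' ⊢
  let : Algebra R R' := ρ.toAlgebra
  let : Algebra R' R'' := ρ'.toAlgebra
  let : Algebra R R'' := (ρ'.comp ρ).toAlgebra
  have : IsScalarTower R R' R'' := IsScalarTower.of_algebraMap_eq (fun _ => rfl)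
  let : Module R N' := Module.compHom N' ρ
  let : Module R' N'' := Module.compHom N'' ρ'
  let : Module R N'' := Module.compHom N'' (ρ'.comp ρ)
  have : IsScalarTower R R' N' := ⟨fun r r' n => by
    change (ρ r * r') • n = ρ r • (r' • n); rw [mul_smul]⟩
  have : IsScalarTower R' R'' N'' := ⟨fun r r' n => by
    change (ρ' r * r') • n = ρ' r • (r' • n); rw [mul_smul]⟩
  have : IsScalarTower R R'' N'' := ⟨fun r r' n => by
    change (ρ' (ρ r) * r') • n = ρ' (ρ r) • (r' • n); rw [mul_smul]⟩
  have : IsScalarTower R R' N'' := ⟨fun r r' n => by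
    change ρ' (ρ r * r') • n = ρ' (ρ r) • (ρ' r' • n); rw [map_mul, mul_smul]⟩
  have h := IsBaseChange.comp hb hb'
  refine (IsBaseChange.iff_of_equiv_comm (LinearEquiv.refl R N) (LinearEquiv.refl R'' N'')
    ?_).mp h
  ext n
  rfl

/-- Abstract core of `rigLift`: if `N` is invertible over `R`, `R → A → S` with `A → S`
surjective with nil kernel, and the base change of `N` to `S` is trivial, then so is the base
change to `A` (all in the semilinear language of `DefsAlg`). -/
theorem rigidifiable_core {R A S : Type u} [CommRing R] [CommRing A] [CommRing S]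
    (εA : R →+* A) (π : A →+* S) (σ : R →+* S) (hσ : σ = π.comp εA)
    (hsurj : Function.Surjective π) (hnil : ∀ x ∈ RingHom.ker π, IsNilpotent x)
    (N : Type u) [AddCommGroup N] [Module R N] [Module.Invertible R N]
    (β : N →ₛₗ[σ] S) (hβ : IsSemilinearBaseChange σ β) :
    ∃ b : N →ₛₗ[εA] A, IsSemilinearBaseChange εA b := by
  subst hσ
  unfold IsSemilinearBaseChange at hβ
  let algRA : Algebra R A := εA.toAlgebra
  let algAS : Algebra A S := π.toAlgebra
  let algRS : Algebra R S := (π.comp εA).toAlgebra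
  have : IsScalarTower R A S := IsScalarTower.of_algebraMap_eq (fun _ => rfl)
  obtain ⟨ψ⟩ := nonempty_equiv_of_baseChange_equiv (R := R) (A := A) (S := S)
    hsurj hnil N hβ.equiv
  refine ⟨{ toFun := fun n => ψ ((1 : A) ⊗ₜ[R] n)
            map_add' := fun m n => by rw [TensorProduct.tmul_add, map_add]
            map_smul' := fun r n => ?_ }, ?_⟩
  · have h1 : (1 : A) ⊗ₜ[R] (r • n) = (εA r) • ((1 : A) ⊗ₜ[R] n) := by
      rw [← TensorProduct.smul_tmul, TensorProduct.smul_tmul']
      congr 1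
    simp only [h1, map_smul]
  · unfold IsSemilinearBaseChange
    exact IsBaseChange.of_equiv ψ (fun x => rfl)

end Semilinear

section Main

variable {k : Type u} [Field k] (B₀ B₁ B₀₁ : Type u) [CommRing B₀] [CommRing B₁] [CommRing B₀₁]
  [Algebra k B₀] [Algebra k B₁] [Algebra k B₀₁] [Algebra B₀ B₀₁] [Algebra B₁ B₀₁]
  [IsScalarTower k B₀ B₀₁] [IsScalarTower k B₁ B₀₁] (e : B₁ →ₐ[k] k)

omit [CommRing B₀] [CommRing B₀₁] [Algebra k B₀] [Algebra k B₀₁] [Algebra B₀ B₀₁]
  [Algebra B₁ B₀₁] [IsScalarTower k B₀ B₀₁] [IsScalarTower k B₁ B₀₁] in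
/-- The marked section commutes with base change. -/
lemma epsHom_comp_tensorMapLeft {A A' : Type u} [CommRing A] [Algebra k A] [CommRing A']
    [Algebra k A'] (φ : A →ₐ[k] A') :
    (epsHom e A').toRingHom.comp (tensorMapLeft k φ B₁) =
      φ.toRingHom.comp (epsHom e A).toRingHom := by
  refine RingHom.ext fun z => ?_
  induction z with
  | zero => simp
  | add x y hx hy => rw [map_add, map_add, hx, hy]
  | tmul a b =>
    simp [epsHom, tensorMapLeft, Algebra.ofId_apply]

/-- **GDC**: rigidifiability lifts along square-zero surjections. -/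
theorem rigLift : RigLift B₀ B₁ B₀₁ e := by
  intro A _ _ I hI G G₀ hBC hrig
  obtain ⟨bc⟩ := hBC
  obtain ⟨b₀, hb₀⟩ := hrig
  have hcomp := isSemilinearBaseChange_comp bc.b₁ bc.isBaseChange₁ b₀ hb₀
  have hcommute : (epsHom e (A ⧸ I)).toRingHom.comp
      (tensorMapLeft k (Ideal.Quotient.mkₐ k I) B₁) =
      (Ideal.Quotient.mk I).comp (epsHom e A).toRingHom :=
    epsHom_comp_tensorMapLeft B₁ e (Ideal.Quotient.mkₐ k I)
  have hnil : ∀ x ∈ RingHom.ker (Ideal.Quotient.mk I), IsNilpotent x := by
    intro x hx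
    have hxI : x ∈ I := by rwa [Ideal.mk_ker] at hx
    refine ⟨2, ?_⟩
    have : x ^ 2 ∈ I ^ 2 := Ideal.pow_mem_pow hxI 2
    rw [hI] at this
    simpa using this
  have := G.invertible₁
  exact rigidifiable_core (epsHom e A).toRingHom (Ideal.Quotient.mk I) _ hcommute
    Ideal.Quotient.mk_surjective hnil G.N₁ _ hcomp

end Main

end Fermat.Agent.S25.H205
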