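import Fermat.Agent.S25.Defs

/-!
# S25 / assembly block AS1: `Stmt.Def → Stmt.SmoothOfRep`

A representing object `J` of the degree-zero rigidified Picard functor that is locally of finite
type over the field `k` is smooth over `k`, provided degree-zero rigidified line bundles lift
along square-zero thickenings of affine bases (`Stmt.Def`).

* `nonempty_iso_pullbackAlong_postComp`: `(M.pullbackAlong φ).pullbackAlong ψ ≅ M.pullbackAlong (φ ∘ ψ)`.
* `formallySmooth_of_def`: the coordinate ring of every affine open of `J` is formally smooth.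
* `smoothOfRep_of_def : Stmt.Def c ε → Stmt.SmoothOfRep c ε`.
-/

set_option autoImplicit false

universe u

open CategoryTheory CategoryTheory.Limits AlgebraicGeometry AlgebraicGeometry.RelPicard
  NeronModelInfra GoodReductionJacobian

namespace Fermat.Agent.S25.H205

section

variable {R : Type u} [CommRing R] {C : Scheme.{u}} {c : C ⟶ Spec (CommRingCat.of R)}
  {ε : SchemeHomOver (𝟙 (Spec (CommRingCat.of R))) c}

/-- Pulling back in two steps is pulling back along the composite. -/
theorem nonempty_iso_pullbackAlong_postComp {T T' T'' : Scheme.{u}}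
    {t : T ⟶ Spec (CommRingCat.of R)} {t' : T' ⟶ Spec (CommRingCat.of R)}
    {t'' : T'' ⟶ Spec (CommRingCat.of R)}
    (M : RigidifiedLineBundle c ε t) (φ : SchemeHomOver t' t) (ψ : SchemeHomOver t'' t') :
    Nonempty (((M.pullbackAlong φ).pullbackAlong ψ).L ≅ (M.pullbackAlong (postComp φ ψ)).L) :=
  ⟨(Scheme.Modules.pullbackComp _ _).app M.L ≪≫
    (Scheme.Modules.pullbackCongr (baseChangeSnd_comp c φ ψ)).app M.L⟩

end

section

variable {k : Type u} [Field k] {C : Scheme.{u}} (c : C ⟶ Spec (CommRingCat.of k))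
  (ε : SchemeHomOver (𝟙 (Spec (CommRingCat.of k))) c)

/-- `Spec (A ⧸ I) ⟶ Spec A` is surjective for a square-zero ideal `I`. -/
theorem specMap_mk_surjective {A : Type u} [CommRing A] (I : Ideal A) (hI : I ^ 2 = ⊥) :
    Function.Surjective (Spec.map (CommRingCat.ofHom (Ideal.Quotient.mk I))).base := by
  have hle : I ≤ nilradical A := by
    intro x hx
    refine ⟨2, ?_⟩
    have : x ^ 2 ∈ I ^ 2 := Ideal.pow_mem_pow hx 2
    rw [hI] at this
    simpa using this
  exact (PrimeSpectrum.comap_quotientMk_bijective_of_le_nilradical hle).2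

/-- Formal smoothness of the coordinate rings of a representing object, from `Stmt.Def`. -/
theorem formallySmooth_of_def (hDef : Stmt.Def c ε) (D : RelativePic0Designation k c)
    (h : RepresentsRelSubPic c ε (algEquivZeroCut c ε) D) {V : D.P.Opens} (hV : IsAffineOpen V)
    [Algebra k Γ(D.P, V)]
    (halg : hV.fromSpec ≫ D.toBase = Spec.map (CommRingCat.ofHom (algebraMap k Γ(D.P, V)))) :
    Algebra.FormallySmooth k Γ(D.P, V) := by
  refine Algebra.FormallySmooth.of_comp_surjective fun A _ _ I hI f => ?_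
  -- the classifying map of the point `f` of `J` with values in `A ⧸ I`
  let φ₀ : SchemeHomOver (specStr k (A ⧸ I)) D.toBase :=
    ⟨Spec.map (CommRingCat.ofHom f.toRingHom) ≫ hV.fromSpec, by
      rw [Category.assoc, halg, specStr, ← Spec.map_comp, ← CommRingCat.ofHom_comp]
      congr 2
      exact f.comp_algebraMap⟩
  have hM₀ : FibrewiseAlgEquivZero (h.poincare.pullbackAlong φ₀) :=
    FibrewiseAlgEquivZero.pullback φ₀ h.poincare_mem
  obtain ⟨M, hM, hMM₀⟩ := hDef A I hI (h.poincare.pullbackAlong φ₀) hM₀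
  obtain ⟨g, ⟨hg⟩, -⟩ := h.univ (specStr k A) M hM
  let ψ := specHomOver k (Ideal.Quotient.mkₐ k I)
  have hcomp : postComp g ψ = φ₀ := by
    apply h.ext_of_iso
    obtain ⟨e1⟩ := nonempty_iso_pullbackAlong_postComp h.poincare g ψ
    obtain ⟨e2⟩ := RigidifiedLineBundle.pullbackAlong_congr ψ
      (M := h.poincare.pullbackAlong g) (M' := M) ⟨hg⟩
    obtain ⟨e3⟩ := hMM₀
    exact ⟨e1.symm ≪≫ e2 ≪≫ e3⟩
  have hcomp' : ψ.1 ≫ g.1 = Spec.map (CommRingCat.ofHom f.toRingHom) ≫ hV.fromSpec :=
    congrArg Subtype.val hcomp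
  -- `g` lands in `V`
  have hrange : Set.range g.1.base ⊆ Set.range hV.fromSpec.base := by
    rintro _ ⟨x, rfl⟩
    obtain ⟨y, rfl⟩ := specMap_mk_surjective I hI x
    refine ⟨(Spec.map (CommRingCat.ofHom f.toRingHom)).base y, ?_⟩
    have := congr(($hcomp').base y)
    exact this.symm
  let ℓ' : Spec (CommRingCat.of A) ⟶ Spec Γ(D.P, V) := IsOpenImmersion.lift hV.fromSpec g.1 hrange
  have hℓ' : ℓ' ≫ hV.fromSpec = g.1 := IsOpenImmersion.lift_fac _ _ _
  let ℓ : Γ(D.P, V) ⟶ CommRingCat.of A := Spec.preimage ℓ'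
  have hℓ : Spec.map ℓ = ℓ' := Spec.map_preimage _
  have h1 : CommRingCat.ofHom (algebraMap k Γ(D.P, V)) ≫ ℓ = CommRingCat.ofHom (algebraMap k A) := by
    apply Spec.map_injective
    rw [Spec.map_comp, hℓ, ← halg, ← Category.assoc, hℓ']
    exact g.2
  have h2 : ℓ ≫ CommRingCat.ofHom (Ideal.Quotient.mkₐ k I).toRingHom =
      CommRingCat.ofHom f.toRingHom := by
    apply Spec.map_injective
    rw [← cancel_mono hV.fromSpec, Spec.map_comp, Category.assoc, hℓ, hℓ']
    exact hcomp'
  refine ⟨{ ℓ.hom with commutes' := fun r => congr($h1 r) }, ?_⟩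
  ext x
  exact congr($h2 x)

/-- **AS1**: `Def → SmoothOfRep`. -/
theorem smoothOfRep_of_def (hDef : Stmt.Def c ε) : Stmt.SmoothOfRep c ε := by
  rintro D ⟨h⟩ hlft
  refine HasRingHomProperty.of_iSup_eq_top (P := @Smooth) (fun V : D.P.affineOpens => V)
    (iSup_affineOpens_eq_top D.P) fun V => ?_
  let e := Scheme.ΓSpecIso (CommRingCat.of k)
  have hft : (e.inv ≫ D.toBase.appLE ⊤ V.1 le_top).hom.FiniteType := by
    rw [CommRingCat.hom_comp, RingHom.finiteType_respectsIso.cancel_left_isIso]
    exact D.toBase.finiteType_appLE (isAffineOpen_top _) V.2 le_top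
  suffices key : (e.inv ≫ D.toBase.appLE ⊤ V.1 le_top).hom.Smooth by
    rw [CommRingCat.hom_comp, RingHom.Smooth.respectsIso.cancel_left_isIso] at key
    exact key
  algebraize [(e.inv ≫ D.toBase.appLE ⊤ V.1 le_top).hom]
  have halg : V.2.fromSpec ≫ D.toBase =
      Spec.map (CommRingCat.ofHom (algebraMap k Γ(D.P, V.1))) := by
    rw [← IsAffineOpen.SpecMap_appLE_fromSpec D.toBase (isAffineOpen_top _) V.2 le_top,
      IsAffineOpen.fromSpec_top, Scheme.isoSpec_Spec_inv, ← Spec.map_comp]
    rfl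
  have hfs : Algebra.FormallySmooth k Γ(D.P, V.1) := formallySmooth_of_def c ε hDef D h V.2 halg
  have hfp : Algebra.FinitePresentation k Γ(D.P, V.1) :=
    Algebra.FinitePresentation.of_finiteType.mp hft
  exact ⟨hfs, hfp⟩

end

end Fermat.Agent.S25.H205
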